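import Fermat.Agent.S34.H97.ResidueOne

/-!
# Branches of the special fibre contain the roots of their units (helper97; S35-GEO, (FS5-ABS))

`C` a chart inside `F`, `V` a valuation subring of `F` containing `C` (a component of the special
fibre: `P = C ∩ m(V)`), `x` a prime of `C` containing `P`.  The *branch* of `C` at `x` along `V`
is the local domain `C_x / P C_x ⊆ κ(V)`.

* `branchNormal_of_val` : if the branch is a valuation ring of `κ(V)` (`hval`), then every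
  `y ∈ V` whose `m`-th power is, modulo `m(V)`, a unit of the branch is itself, modulo `m(V)`,
  a unit of the branch (`BranchNormal C V m x` of the Frobenius Čech lemma);
* `val_of_valuationRing_quotient` : `hval` from: `T = C_x`, `g ∈ T` with `g T ∩ C = P`,
  `T / g T` a valuation ring, and `κ(V) = Frac (C / P)` (`hfrac`);
* `branchNormal_of_valuationRing_quotient` : the two together.

Mathlib only (plus two lemmas on nonunits).
-/

set_option autoImplicit false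

namespace Fermat.Agent.S35.H97

open Fermat.Agent.S34.H97

section Nonunits

variable {F : Type*} [Field F] (V : ValuationSubring F)

/-- the difference of two nonunits is a nonunit. -/
theorem sub_mem_nonunits {a b : F} (ha : a ∈ V.nonunits) (hb : b ∈ V.nonunits) :
    a - b ∈ V.nonunits := by
  rw [ValuationSubring.mem_nonunits_iff] at ha hb ⊢
  exact (V.valuation).map_sub_lt ha hb

/-- the sum of two nonunits is a nonunit. -/
theorem add_mem_nonunits {a b : F} (ha : a ∈ V.nonunits) (hb : b ∈ V.nonunits) :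
    a + b ∈ V.nonunits := by
  rw [ValuationSubring.mem_nonunits_iff] at ha hb ⊢
  exact (V.valuation).map_add_lt ha hb

/-- congruent elements of `V` have congruent powers. -/
theorem pow_sub_pow_mem_nonunits {u v : F} (hu : u ∈ V) (hv : v ∈ V)
    (h : u - v ∈ V.nonunits) (m : ℕ) : u ^ m - v ^ m ∈ V.nonunits := by
  rw [← geom_sum₂_mul]
  refine mul_mem_nonunits V (sum_mem fun i _ => ?_) h
  exact mul_mem (pow_mem hu _) (pow_mem hv _)

/-- a positive power of a nonunit is a nonunit. -/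
theorem pow_mem_nonunits {u : F} (hu : u ∈ V.nonunits) {m : ℕ} (hm : 0 < m) :
    u ^ m ∈ V.nonunits := by
  obtain ⟨k, rfl⟩ := Nat.exists_eq_succ_of_ne_zero hm.ne'
  rw [pow_succ]
  exact mul_mem_nonunits V (pow_mem (V.nonunits_subset hu) k) hu

end Nonunits

section Branch

variable {A₀ F : Type*} [CommRing A₀] [Field F] [Algebra A₀ F]

/-- **(BN1)** if the branch of `C` at `x` along `V` is a valuation ring of `κ(V)`, it contains
the `m`-th roots (in `κ(V)`) of its units. -/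
theorem branchNormal_of_val (C : Subalgebra A₀ F) (V : ValuationSubring F)
    (hCV : ∀ c ∈ C, c ∈ V) (x : Ideal ↥C) [hx : x.IsPrime]
    (hPx : ∀ c : ↥C, (c : F) ∈ V.nonunits → c ∈ x)
    (hval : ∀ y ∈ V, y ∉ V.nonunits →
      (∃ s₁ s₂ : ↥C, s₂ ∉ x ∧ y * (s₂ : F) - (s₁ : F) ∈ V.nonunits) ∨
      (∃ s₁ s₂ : ↥C, s₂ ∉ x ∧ y⁻¹ * (s₂ : F) - (s₁ : F) ∈ V.nonunits))
    (m : ℕ) (hm : 0 < m) (y : F) (hy : y ∈ V)
    (h : ∃ a b : ↥C, a ∉ x ∧ b ∉ x ∧ y ^ m * (b : F) - (a : F) ∈ V.nonunits) :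
    ∃ s₁ s₂ : ↥C, s₁ ∉ x ∧ s₂ ∉ x ∧ y * (s₂ : F) - (s₁ : F) ∈ V.nonunits := by
  obtain ⟨a, b, hax, hbx, hab⟩ := h
  have hyu : y ∉ V.nonunits := by
    intro hyn
    apply hax
    apply hPx
    have h1 : y ^ m * (b : F) ∈ V.nonunits := by
      rw [mul_comm]
      exact mul_mem_nonunits V (hCV _ b.2) (pow_mem_nonunits V hyn hm)
    have h2 : (a : F) = y ^ m * (b : F) - (y ^ m * (b : F) - (a : F)) := by ring
    rw [h2]
    exact sub_mem_nonunits V h1 hab
  -- the key congruence: `y u₂ ≡ u₁` gives `u₁ ^ m b - a u₂ ^ m ∈ x`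
  have key : ∀ u₁ u₂ : ↥C, y * (u₂ : F) - (u₁ : F) ∈ V.nonunits →
      u₁ ^ m * b - a * u₂ ^ m ∈ x := by
    intro u₁ u₂ hu
    apply hPx
    have hu₁ : (u₁ : F) ∈ V := hCV _ u₁.2
    have hu₂ : (u₂ : F) ∈ V := hCV _ u₂.2
    have h1 : (y * (u₂ : F)) ^ m - (u₁ : F) ^ m ∈ V.nonunits :=
      pow_sub_pow_mem_nonunits V (mul_mem hy hu₂) hu₁ hu m
    have h2 : ((u₁ ^ m * b - a * u₂ ^ m : ↥C) : F)
        = (u₂ : F) ^ m * (y ^ m * (b : F) - (a : F))
          - (b : F) * ((y * (u₂ : F)) ^ m - (u₁ : F) ^ m) := by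
      push_cast
      ring
    rw [h2]
    exact sub_mem_nonunits V (mul_mem_nonunits V (pow_mem hu₂ m) hab)
      (mul_mem_nonunits V (hCV _ b.2) h1)
  rcases hval y hy hyu with ⟨s₁, s₂, hs₂, hs⟩ | ⟨s₁, s₂, hs₂, hs⟩
  · refine ⟨s₁, s₂, ?_, hs₂, hs⟩
    intro hs₁
    have h1 := key s₁ s₂ hs
    have h2 : a * s₂ ^ m ∈ x := by
      have h3 : a * s₂ ^ m = s₁ ^ m * b - (s₁ ^ m * b - a * s₂ ^ m) := by ring
      rw [h3]
      exact x.sub_mem (x.mul_mem_right _ (x.pow_mem_of_mem hs₁ m hm)) h1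
    rcases hx.mem_or_mem h2 with h4 | h4
    · exact hax h4
    · exact hs₂ (hx.mem_of_pow_mem m h4)
  · have hy0 : y ≠ 0 := by
      rintro rfl
      apply hyu
      rw [ValuationSubring.mem_nonunits_iff, map_zero]
      exact zero_lt_one
    have hs' : y * (s₁ : F) - (s₂ : F) ∈ V.nonunits := by
      have h1 : y * (s₁ : F) - (s₂ : F) = -(y * (y⁻¹ * (s₂ : F) - (s₁ : F))) := by
        field_simp
        ring
      rw [h1]
      have h2 := mul_mem_nonunits V hy hs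
      rw [ValuationSubring.mem_nonunits_iff] at h2 ⊢
      rwa [Valuation.map_neg]
    refine ⟨s₂, s₁, hs₂, ?_, hs'⟩
    intro hs₁
    have h1 := key s₂ s₁ hs'
    have h2 : s₂ ^ m * b ∈ x := by
      have h3 : s₂ ^ m * b = (s₂ ^ m * b - a * s₁ ^ m) + a * s₁ ^ m := by ring
      rw [h3]
      exact x.add_mem h1 (x.mul_mem_left _ (x.pow_mem_of_mem hs₁ m hm))
    rcases hx.mem_or_mem h2 with h4 | h4
    · exact hs₂ (hx.mem_of_pow_mem m h4)
    · exact hbx h4

/-- **(BN2)** the branch is a valuation ring of `κ(V)`: `T = C_x`, `g T ∩ C = C ∩ m(V)`,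
`T / g T` a valuation ring, `κ(V) = Frac (C / (C ∩ m(V)))`. -/
theorem val_of_valuationRing_quotient (C : Subalgebra A₀ F) (V : ValuationSubring F)
    (hCV : ∀ c ∈ C, c ∈ V) (x : Ideal ↥C) [hx : x.IsPrime]
    (T : Type*) [CommRing T] [Algebra ↥C T] [IsLocalization.AtPrime T x] (g : T)
    [IsDomain (T ⧸ Ideal.span {g})] [ValuationRing (T ⧸ Ideal.span {g})]
    (hker : ∀ c : ↥C, (c : F) ∈ V.nonunits ↔ algebraMap ↥C T c ∈ Ideal.span {g})
    (hfrac : ∀ y ∈ V, ∃ c d : ↥C, (d : F) ∉ V.nonunits ∧ y * (d : F) - (c : F) ∈ V.nonunits)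
    (y : F) (hy : y ∈ V) (hyu : y ∉ V.nonunits) :
    (∃ s₁ s₂ : ↥C, s₂ ∉ x ∧ y * (s₂ : F) - (s₁ : F) ∈ V.nonunits) ∨
    (∃ s₁ s₂ : ↥C, s₂ ∉ x ∧ y⁻¹ * (s₂ : F) - (s₁ : F) ∈ V.nonunits) := by
  obtain ⟨c, d, hd, hcd⟩ := hfrac y hy
  have hdV : (d : F) ∈ V := hCV _ d.2
  have hd0 : (d : F) ≠ 0 := by
    intro h0
    apply hd
    rw [h0, ValuationSubring.mem_nonunits_iff, map_zero]
    exact zero_lt_one
  have hdinv : (d : F)⁻¹ ∈ V := inv_mem_of_not_mem_nonunits V hdV hd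
  have hy0 : y ≠ 0 := by
    rintro rfl
    apply hyu
    rw [ValuationSubring.mem_nonunits_iff, map_zero]
    exact zero_lt_one
  have hyinv : y⁻¹ ∈ V := inv_mem_of_not_mem_nonunits V hy hyu
  obtain ⟨ebar, he⟩ := ValuationRing.cond (Ideal.Quotient.mk (Ideal.span {g}) (algebraMap ↥C T d))
    (Ideal.Quotient.mk (Ideal.span {g}) (algebraMap ↥C T c))
  obtain ⟨e, rfl⟩ := Ideal.Quotient.mk_surjective ebar
  obtain ⟨⟨e₁, e₂⟩, he12⟩ := IsLocalization.surj x.primeCompl e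
  have he₂x : (e₂ : ↥C) ∉ x := e₂.2
  simp only at he12
  rcases he with he | he
  · -- `d * e = c` in `T / g`
    left
    refine ⟨e₁, e₂, he₂x, ?_⟩
    have h1 : algebraMap ↥C T d * e - algebraMap ↥C T c ∈ Ideal.span {g} := by
      rw [← Ideal.Quotient.eq, map_mul]
      exact he
    have h2 : algebraMap ↥C T (d * e₁ - c * e₂) ∈ Ideal.span {g} := by
      have h3 : algebraMap ↥C T (d * e₁ - c * e₂)
          = (algebraMap ↥C T d * e - algebraMap ↥C T c) * algebraMap ↥C T e₂ := by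
        rw [map_sub, map_mul, map_mul, ← he12]
        ring
      rw [h3]
      exact Ideal.mul_mem_right _ _ h1
    have h4 : ((d * e₁ - c * (e₂ : ↥C) : ↥C) : F) ∈ V.nonunits := (hker _).2 h2
    have h5 : y * ((e₂ : ↥C) : F) - (e₁ : F)
        = (d : F)⁻¹ * (((e₂ : ↥C) : F) * (y * (d : F) - (c : F))
          - ((d * e₁ - c * (e₂ : ↥C) : ↥C) : F)) := by
      push_cast
      field_simp
      ring
    rw [h5]
    exact mul_mem_nonunits V hdinv
      (sub_mem_nonunits V (mul_mem_nonunits V (hCV _ (e₂ : ↥C).2) hcd) h4)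
  · -- `c * e = d` in `T / g`
    right
    refine ⟨e₁, e₂, he₂x, ?_⟩
    have h1 : algebraMap ↥C T c * e - algebraMap ↥C T d ∈ Ideal.span {g} := by
      rw [← Ideal.Quotient.eq, map_mul]
      exact he
    have h2 : algebraMap ↥C T (c * e₁ - d * e₂) ∈ Ideal.span {g} := by
      have h3 : algebraMap ↥C T (c * e₁ - d * e₂)
          = (algebraMap ↥C T c * e - algebraMap ↥C T d) * algebraMap ↥C T e₂ := by
        rw [map_sub, map_mul, map_mul, ← he12]
        ring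
      rw [h3]
      exact Ideal.mul_mem_right _ _ h1
    have h4 : ((c * e₁ - d * (e₂ : ↥C) : ↥C) : F) ∈ V.nonunits := (hker _).2 h2
    have h5 : y⁻¹ * ((e₂ : ↥C) : F) - (e₁ : F)
        = -(y⁻¹ * (d : F)⁻¹ * ((e₁ : F) * (y * (d : F) - (c : F))
          + ((c * e₁ - d * (e₂ : ↥C) : ↥C) : F))) := by
      push_cast
      field_simp
      ring
    rw [h5]
    have h6 := mul_mem_nonunits V (mul_mem hyinv hdinv)
      (add_mem_nonunits V (mul_mem_nonunits V (hCV _ e₁.2) hcd) h4)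
    rw [ValuationSubring.mem_nonunits_iff] at h6 ⊢
    rwa [Valuation.map_neg]

/-- **(BN)** `BranchNormal C V m x` from a valuation-ring quotient of the local ring. -/
theorem branchNormal_of_valuationRing_quotient (C : Subalgebra A₀ F) (V : ValuationSubring F)
    (hCV : ∀ c ∈ C, c ∈ V) (x : Ideal ↥C) [hx : x.IsPrime]
    (hPx : ∀ c : ↥C, (c : F) ∈ V.nonunits → c ∈ x)
    (T : Type*) [CommRing T] [Algebra ↥C T] [IsLocalization.AtPrime T x] (g : T)
    [IsDomain (T ⧸ Ideal.span {g})] [ValuationRing (T ⧸ Ideal.span {g})]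
    (hker : ∀ c : ↥C, (c : F) ∈ V.nonunits ↔ algebraMap ↥C T c ∈ Ideal.span {g})
    (hfrac : ∀ y ∈ V, ∃ c d : ↥C, (d : F) ∉ V.nonunits ∧ y * (d : F) - (c : F) ∈ V.nonunits)
    (m : ℕ) (hm : 0 < m) (y : F) (hy : y ∈ V)
    (h : ∃ a b : ↥C, a ∉ x ∧ b ∉ x ∧ y ^ m * (b : F) - (a : F) ∈ V.nonunits) :
    ∃ s₁ s₂ : ↥C, s₁ ∉ x ∧ s₂ ∉ x ∧ y * (s₂ : F) - (s₁ : F) ∈ V.nonunits :=
  branchNormal_of_val C V hCV x hPx
    (fun y hy hyu => val_of_valuationRing_quotient C V hCV x T g hker hfrac y hy hyu) m hm y hy h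

end Branch

end Fermat.Agent.S35.H97
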