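import Fermat.Agent.S34.H42.CuspLoc
import Fermat.Agent.S34.H97.ChartLoc
import Fermat.Agent.S34.H36.Dichotomy
import Fermat.Agent.S35.H97.BranchNormal
import Fermat.Agent.S35.H27.FrobCech

/-!
# `BranchNormal` on the charts of the semistable model (helper97; S35-GEO, supplier (FS5))

* `val_chart` : for a descended setup `DSetup A₀ O₀ t` (level `M'`, good reduction) and ANY prime
  `n ∋ ϖ` of the chart `S = chart A₀ t`: the local ring of the special fibre of `S` at `n` is a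
  valuation ring of the residue field of the Gauss valuation ring `O₀` (a discrete valuation
  ring if `n` is a closed point, the whole field otherwise).
* `locComap` : the contraction to a ring `S'` of the maximal ideal of the local ring `C_x`
  along a homomorphism `ψ : S' → F` with image in `C_x` (`H42.InLoc`).
* `branchNormal_of_chart_hom` : **`BranchNormal C V m x` at EVERY prime `x ⊇ C ∩ m(V)`** of a
  normal chart `C` of the level-`qM'` field, for either component `V` (`φ = α` or `β = w ∘ α`)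
  and either chart (`t = x₀` or `x₀⁻¹`), as soon as `φ t ∈ C_x` (`H42.InLoc`; suppliers:
  `H42.inLoc_of_mem`, `inLoc_of_noncusp`, `inLoc_inv_of_cusp`).  One-component points and
  crossing points alike, over a ramified or unramified base: the branch `C_x / (C ∩ m(V))` lies
  between the local ring of the special fibre of the level-`M'` chart and its fraction field.
  Binder block = that of `H42.pointUFD_of_chart_hom`.
* `oneComp_of_chart_hom` : `H27.OneComp C V V' m x`.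
* `fib_of_localization`, `fib_of_dec` : the transversality clause of `H27.Crossing` from
  `m(C_x) ≤ P₁ C_x + P₂ C_x` (node: `H46.NodeHyp.max_R`), and its base change along
  `C″ = C₀ + ϖ″ C″`.
-/

set_option autoImplicit false
set_option linter.style.haveILetI false
set_option linter.unusedSectionVars false

noncomputable section

namespace Fermat.Agent.S35.H97

open Fermat.Agent.S18 Fermat.Agent.S18.H19

section LevelOne

variable {A₀ : Type*} [CommRing A₀] [IsDomain A₀] [IsDiscreteValuationRing A₀] [CharZero A₀]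
  {K : Type*} [Field K] [Algebra A₀ K] [FaithfulSMul A₀ K]

/-- the uniformiser times an element of the chart is a nonunit of `O₀`. -/
theorem unif_mul_mem_nonunits (ϖ : A₀) (hϖ : Irreducible ϖ) (O₀ : ValuationSubring K) (t : K)
    (hS : DSetup A₀ O₀ t) (c : ↥(chart A₀ t)) :
    ((algebraMap A₀ ↥(chart A₀ t) ϖ * c : ↥(chart A₀ t)) : K) ∈ O₀.nonunits := by
  have h1 : ((algebraMap A₀ ↥(chart A₀ t) ϖ * c : ↥(chart A₀ t)) : K)
      = (c : K) * algebraMap A₀ K ϖ := by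
    rw [mul_comm]
    rfl
  rw [h1]
  exact Fermat.Agent.S34.H97.mul_mem_nonunits O₀ (H6.chart_le O₀ t hS _ c.2)
    (Fermat.Agent.S34.H97.unif_mem_nonunits ϖ hϖ O₀ t hS)

/-- **The special fibre of the level-`M'` chart is locally a valuation ring.**  For every prime
`n ∋ ϖ` of `S = chart A₀ t`, the ring `S_n / ϖ S_n` is a valuation ring of `κ(O₀)`. -/
theorem val_chart (ϖ : A₀) (hϖ : Irreducible ϖ) (O₀ : ValuationSubring K) (t : K)
    (hS : DSetup A₀ O₀ t) (n : Ideal ↥(chart A₀ t)) [hn : n.IsPrime]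
    (hϖn : algebraMap A₀ ↥(chart A₀ t) ϖ ∈ n) (v : K) (hv : v ∈ O₀) (hvu : v ∉ O₀.nonunits) :
    (∃ s₁ s₂ : ↥(chart A₀ t), s₂ ∉ n ∧ v * (s₂ : K) - (s₁ : K) ∈ O₀.nonunits) ∨
    (∃ s₁ s₂ : ↥(chart A₀ t), s₂ ∉ n ∧ v⁻¹ * (s₂ : K) - (s₁ : K) ∈ O₀.nonunits) := by
  have hCV : ∀ c ∈ chart A₀ t, c ∈ O₀ := H6.chart_le O₀ t hS
  have hzero : (0 : K) ∈ O₀.nonunits := by
    rw [ValuationSubring.mem_nonunits_iff, map_zero]
    exact zero_lt_one
  have hfrac : ∀ y ∈ O₀, ∃ c d : ↥(chart A₀ t), (d : K) ∉ O₀.nonunits ∧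
      y * (d : K) - (c : K) ∈ O₀.nonunits := by
    intro y hy
    obtain ⟨d, s, hd, hyd⟩ := Fermat.Agent.S34.H97.chart_loc_subtype ϖ hϖ O₀ t hS y hy
    refine ⟨s, d, hd, ?_⟩
    have h0 : y * (d : K) - (s : K) = 0 := sub_eq_zero.mpr hyd
    rw [h0]
    exact hzero
  by_cases hcase : ∀ c : ↥(chart A₀ t), c ∈ n → (c : K) ∈ O₀.nonunits
  · left
    obtain ⟨c, d, hd, hcd⟩ := hfrac v hv
    exact ⟨c, d, fun hdn => hd (hcase d hdn), hcd⟩
  · push Not at hcase
    obtain ⟨c₀, hc₀n, hc₀⟩ := hcase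
    haveI hded := Fermat.Agent.S34.H9.chart_dedekind ϖ hϖ O₀ t hS
    have hspan_le : Ideal.span {algebraMap A₀ ↥(chart A₀ t) ϖ} ≤ n := by
      rw [Ideal.span_le, Set.singleton_subset_iff]
      exact hϖn
    -- `n` is maximal
    have hnmax : n.IsMaximal := by
      have hsurj : Function.Surjective
          (Ideal.Quotient.mk (Ideal.span {algebraMap A₀ ↥(chart A₀ t) ϖ})) :=
        Ideal.Quotient.mk_surjective
      have hker : RingHom.ker (Ideal.Quotient.mk (Ideal.span {algebraMap A₀ ↥(chart A₀ t) ϖ}))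
          ≤ n := by
        rw [Ideal.mk_ker]
        exact hspan_le
      have hprime' : (n.map (Ideal.Quotient.mk
          (Ideal.span {algebraMap A₀ ↥(chart A₀ t) ϖ}))).IsPrime :=
        Ideal.map_isPrime_of_surjective hsurj hker
      have hne : n.map (Ideal.Quotient.mk (Ideal.span {algebraMap A₀ ↥(chart A₀ t) ϖ})) ≠ ⊥ := by
        intro h
        have h1 : Ideal.Quotient.mk (Ideal.span {algebraMap A₀ ↥(chart A₀ t) ϖ}) c₀ ∈
            n.map (Ideal.Quotient.mk (Ideal.span {algebraMap A₀ ↥(chart A₀ t) ϖ})) :=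
          Ideal.mem_map_of_mem _ hc₀n
        rw [h, Ideal.mem_bot, Ideal.Quotient.eq_zero_iff_mem, Ideal.mem_span_singleton] at h1
        obtain ⟨c', rfl⟩ := h1
        exact hc₀ (unif_mul_mem_nonunits ϖ hϖ O₀ t hS c')
      haveI hmax' := Ideal.IsPrime.isMaximal hprime' hne
      have h2 := Ideal.comap_isMaximal_of_surjective
        (Ideal.Quotient.mk (Ideal.span {algebraMap A₀ ↥(chart A₀ t) ϖ})) hsurj
        (K := n.map (Ideal.Quotient.mk (Ideal.span {algebraMap A₀ ↥(chart A₀ t) ϖ})))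
      have hker' : Ideal.comap (Ideal.Quotient.mk
          (Ideal.span {algebraMap A₀ ↥(chart A₀ t) ϖ})) ⊥ ≤ n := hker
      rwa [Ideal.comap_map_of_surjective _ hsurj, sup_eq_left.mpr hker'] at h2
    obtain ⟨t', -, hmap⟩ := Fermat.Agent.S34.H9.chart_max_span ϖ hϖ O₀ t hS n hnmax hϖn
      (Localization.AtPrime n)
    have hprimeS : (Ideal.span {algebraMap A₀ ↥(chart A₀ t) ϖ}).IsPrime :=
      (Ideal.Quotient.isDomain_iff_prime _).mp inferInstance
    have hdisj : Disjoint (n.primeCompl : Set ↥(chart A₀ t))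
        (Ideal.span {algebraMap A₀ ↥(chart A₀ t) ϖ} : Set ↥(chart A₀ t)) := by
      rw [Set.disjoint_left]
      intro c hc hcP
      exact hc (hspan_le hcP)
    have hmapϖ : Ideal.map (algebraMap ↥(chart A₀ t) (Localization.AtPrime n))
        (Ideal.span {algebraMap A₀ ↥(chart A₀ t) ϖ})
        = Ideal.span {algebraMap ↥(chart A₀ t) (Localization.AtPrime n)
            (algebraMap A₀ ↥(chart A₀ t) ϖ)} := by
      rw [Ideal.map_span, Set.image_singleton]
    have hprimeT : (Ideal.span {algebraMap ↥(chart A₀ t) (Localization.AtPrime n)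
        (algebraMap A₀ ↥(chart A₀ t) ϖ)}).IsPrime := by
      rw [← hmapϖ]
      exact IsLocalization.isPrime_of_isPrime_disjoint n.primeCompl (Localization.AtPrime n) _
        hprimeS hdisj
    have hcomap : (Ideal.map (algebraMap ↥(chart A₀ t) (Localization.AtPrime n))
        (Ideal.span {algebraMap A₀ ↥(chart A₀ t) ϖ})).comap
          (algebraMap ↥(chart A₀ t) (Localization.AtPrime n))
        = Ideal.span {algebraMap A₀ ↥(chart A₀ t) ϖ} :=
      IsLocalization.under_map_of_isPrime_disjoint n.primeCompl (Localization.AtPrime n)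
        hprimeS hdisj
    have hker : ∀ c : ↥(chart A₀ t), (c : K) ∈ O₀.nonunits ↔
        algebraMap ↥(chart A₀ t) (Localization.AtPrime n) c ∈
          Ideal.span {algebraMap ↥(chart A₀ t) (Localization.AtPrime n)
            (algebraMap A₀ ↥(chart A₀ t) ϖ)} := by
      intro c
      constructor
      · intro hc
        obtain ⟨c', rfl⟩ := Fermat.Agent.S34.H97.chart_center ϖ hϖ O₀ t hS c hc
        rw [map_mul]
        exact Ideal.mul_mem_right _ _ (Ideal.mem_span_singleton_self _)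
      · intro hc
        have h1 : c ∈ Ideal.span {algebraMap A₀ ↥(chart A₀ t) ϖ} := by
          rw [← hcomap, Ideal.mem_comap, hmapϖ]
          exact hc
        obtain ⟨c', rfl⟩ := Ideal.mem_span_singleton.mp h1
        exact unif_mul_mem_nonunits ϖ hϖ O₀ t hS c'
    have ht : algebraMap ↥(chart A₀ t) (Localization.AtPrime n) t' ∉
        Ideal.span {algebraMap ↥(chart A₀ t) (Localization.AtPrime n)
          (algebraMap A₀ ↥(chart A₀ t) ϖ)} := by
      intro h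
      apply hc₀
      rw [hker]
      have h2 : Ideal.map (algebraMap ↥(chart A₀ t) (Localization.AtPrime n)) n ≤
          Ideal.span {algebraMap ↥(chart A₀ t) (Localization.AtPrime n)
            (algebraMap A₀ ↥(chart A₀ t) ϖ)} := by
        rw [hmap, Ideal.span_le]
        rintro z (rfl | rfl)
        · exact h
        · exact Ideal.mem_span_singleton_self _
      exact h2 (Ideal.mem_map_of_mem _ hc₀n)
    haveI : IsLocalRing (Localization.AtPrime n) :=
      IsLocalization.AtPrime.isLocalRing (Localization.AtPrime n) n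
    haveI : IsNoetherianRing ↥(chart A₀ t) := Fermat.Agent.S34.H9.chart_noetherian O₀ t hS
    haveI : IsNoetherianRing (Localization.AtPrime n) :=
      IsLocalization.isNoetherianRing n.primeCompl (Localization.AtPrime n) inferInstance
    have hmaxT : IsLocalRing.maximalIdeal (Localization.AtPrime n)
        = Ideal.span {algebraMap ↥(chart A₀ t) (Localization.AtPrime n)
            (algebraMap A₀ ↥(chart A₀ t) ϖ),
          algebraMap ↥(chart A₀ t) (Localization.AtPrime n) t'} := by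
      rw [← IsLocalization.AtPrime.map_eq_maximalIdeal n (Localization.AtPrime n), hmap,
        Set.pair_comm]
    obtain ⟨hdom, hdvr⟩ := Fermat.Agent.S34.H36.isDiscreteValuationRing_quotient _ _ hprimeT
      hmaxT ht
    exact val_of_valuationRing_quotient (chart A₀ t) O₀ hCV n (Localization.AtPrime n)
      (algebraMap ↥(chart A₀ t) (Localization.AtPrime n) (algebraMap A₀ ↥(chart A₀ t) ϖ))
      hker hfrac v hv hvu

end LevelOne

section LocComap

variable {A₀ L : Type*} [CommRing A₀] [Field L] [Algebra A₀ L]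

open Fermat.Agent.S34.H42 in
/-- The contraction to `S'` of the maximal ideal of the local ring `C_x`, along a homomorphism
`ψ : S' → L` with image in `C_x`. -/
def locComap {S' : Type*} [CommRing S'] (C : Subalgebra A₀ L) (x : Ideal ↥C) [hx : x.IsPrime]
    (ψ : S' →+* L) (hin : ∀ s : S', InLoc C x (ψ s)) : Ideal S' where
  carrier := {s | ∀ a b : ↥C, b ∉ x → ψ s * (b : L) = (a : L) → a ∈ x}
  zero_mem' := by
    intro a b _ h
    have h0 : a = 0 := Subtype.ext (by rw [← h, map_zero, zero_mul]; rfl)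
    rw [h0]
    exact x.zero_mem
  add_mem' := by
    intro s s' hs hs' a b hb h
    obtain ⟨a₁, b₁, hb₁, h₁⟩ := hin s
    obtain ⟨a₂, b₂, hb₂, h₂⟩ := hin s'
    have ha₁ := hs a₁ b₁ hb₁ h₁
    have ha₂ := hs' a₂ b₂ hb₂ h₂
    have e : a * (b₁ * b₂) = (a₁ * b₂ + a₂ * b₁) * b := by
      apply Subtype.ext
      push_cast
      rw [← h, ← h₁, ← h₂, map_add]
      ring
    have h3 : a * (b₁ * b₂) ∈ x := by
      rw [e]
      exact x.mul_mem_right _ (x.add_mem (x.mul_mem_right _ ha₁) (x.mul_mem_right _ ha₂))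
    rcases hx.mem_or_mem h3 with h4 | h4
    · exact h4
    · exact absurd h4 (fun h5 => (hx.mem_or_mem h5).elim hb₁ hb₂)
  smul_mem' := by
    intro r s hs a b hb h
    obtain ⟨a₃, b₃, hb₃, h₃⟩ := hin r
    obtain ⟨a₁, b₁, hb₁, h₁⟩ := hin s
    have ha₁ := hs a₁ b₁ hb₁ h₁
    have e : a * (b₃ * b₁) = a₃ * a₁ * b := by
      apply Subtype.ext
      push_cast
      rw [← h, ← h₁, ← h₃, smul_eq_mul, map_mul]
      ring
    have h3 : a * (b₃ * b₁) ∈ x := by
      rw [e]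
      exact x.mul_mem_right _ (x.mul_mem_left _ ha₁)
    rcases hx.mem_or_mem h3 with h4 | h4
    · exact h4
    · exact absurd h4 (fun h5 => (hx.mem_or_mem h5).elim hb₃ hb₁)

open Fermat.Agent.S34.H42 in
theorem mem_locComap {S' : Type*} [CommRing S'] (C : Subalgebra A₀ L) (x : Ideal ↥C)
    [hx : x.IsPrime] (ψ : S' →+* L) (hin : ∀ s : S', InLoc C x (ψ s)) (s : S') :
    s ∈ locComap C x ψ hin ↔ ∀ a b : ↥C, b ∉ x → ψ s * (b : L) = (a : L) → a ∈ x :=
  Iff.rfl

open Fermat.Agent.S34.H42 in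
/-- an element outside `locComap` maps to a unit of `C_x`. -/
theorem exists_of_not_mem_locComap {S' : Type*} [CommRing S'] (C : Subalgebra A₀ L)
    (x : Ideal ↥C) [hx : x.IsPrime] (ψ : S' →+* L) (hin : ∀ s : S', InLoc C x (ψ s)) {s : S'}
    (hs : s ∉ locComap C x ψ hin) :
    ∃ a b : ↥C, a ∉ x ∧ b ∉ x ∧ ψ s * (b : L) = (a : L) := by
  rw [mem_locComap] at hs
  push Not at hs
  obtain ⟨a, b, hb, h, ha⟩ := hs
  exact ⟨a, b, ha, hb, h⟩

open Fermat.Agent.S34.H42 in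
theorem locComap_isPrime {S' : Type*} [CommRing S'] (C : Subalgebra A₀ L) (x : Ideal ↥C)
    [hx : x.IsPrime] (ψ : S' →+* L) (hin : ∀ s : S', InLoc C x (ψ s)) :
    (locComap C x ψ hin).IsPrime := by
  have h1x : (1 : ↥C) ∉ x := (Ideal.ne_top_iff_one x).mp hx.ne_top
  refine ⟨?_, ?_⟩
  · rw [Ideal.ne_top_iff_one]
    intro h1
    exact h1x (h1 1 1 h1x (by rw [map_one, one_mul]))
  · intro s s' hss
    by_contra hcon
    push Not at hcon
    obtain ⟨a₁, b₁, ha₁, hb₁, h₁⟩ := exists_of_not_mem_locComap C x ψ hin hcon.1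
    obtain ⟨a₂, b₂, ha₂, hb₂, h₂⟩ := exists_of_not_mem_locComap C x ψ hin hcon.2
    have h3 := hss (a₁ * a₂) (b₁ * b₂) (fun h5 => (hx.mem_or_mem h5).elim hb₁ hb₂) (by
      push_cast
      rw [map_mul, ← h₁, ← h₂]
      ring)
    exact (hx.mem_or_mem h3).elim ha₁ ha₂

end LocComap

section Main

variable {A₀ : Type*} [CommRing A₀] [IsDomain A₀] [IsDiscreteValuationRing A₀] [CharZero A₀]
  {K L : Type*} [Field K] [Field L] [Algebra A₀ K] [Algebra A₀ L] [FaithfulSMul A₀ K]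

open Fermat.Agent.S34.H42 in
/-- **`BranchNormal` at every point of a component.**  `C` a normal chart of `L` with fraction
field `L`, `V` a valuation subring of `L` over the Gauss valuation ring `O₀` of `K` along
`φ : K → L` (`φ = α` for the first component, `φ = β` for the second), with residue degree one
(`hres`), `x ⊇ C ∩ m(V)` a prime of `C` whose local ring contains `φ t`. -/
theorem branchNormal_of_chart_hom (ϖ : A₀) (hϖ : Irreducible ϖ)
    (O₀ : ValuationSubring K) (t : K) (hS : DSetup A₀ O₀ t)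
    (φ : K →+* L) (hφA : ∀ a : A₀, φ (algebraMap A₀ K a) = algebraMap A₀ L a)
    (C : Subalgebra A₀ L) [IsIntegrallyClosed ↥C]
    (hfrac : ∀ y : L, ∃ a ∈ C, ∃ b ∈ C, b ≠ 0 ∧ y = a / b)
    (V : ValuationSubring L) (hCV : ∀ c ∈ C, c ∈ V)
    (hφV : ∀ v : K, φ v ∈ V ↔ v ∈ O₀)
    (hres : ∀ g ∈ V, ∃ v ∈ O₀, g - φ v ∈ V.nonunits)
    (x : Ideal ↥C) [hx : x.IsPrime] (hPx : ∀ c : ↥C, (c : L) ∈ V.nonunits → c ∈ x)
    (hloc : InLoc C x (φ t)) (m : ℕ) (hm : 0 < m) :
    Fermat.Agent.S35.H27.BranchNormal C V m x := by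
  intro y hy h
  refine branchNormal_of_val C V hCV x hPx ?_ m hm y hy h
  clear h hy y
  intro y hy hyu
  have hin : ∀ s : ↥(chart A₀ t),
      InLoc C x ((φ.comp (algebraMap ↥(chart A₀ t) K)) s) := fun s =>
    chart_le_inLoc C hfrac x (φ t) hloc (φ (s : K)) (map_mem_chart_of_hom φ hφA t s.2)
  haveI hnprime : (locComap C x (φ.comp (algebraMap ↥(chart A₀ t) K)) hin).IsPrime :=
    locComap_isPrime C x _ hin
  have hnon : ∀ f : K, φ f ∈ V.nonunits ↔ f ∈ O₀.nonunits :=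
    Fermat.Agent.S34.H64.mem_nonunits_iff_of_mem_iff φ O₀ V hφV
  have hϖn : algebraMap A₀ ↥(chart A₀ t) ϖ ∈
      locComap C x (φ.comp (algebraMap ↥(chart A₀ t) K)) hin := by
    intro a b _ h
    apply hPx
    rw [← h]
    have h1 : (φ.comp (algebraMap ↥(chart A₀ t) K)) (algebraMap A₀ ↥(chart A₀ t) ϖ)
        = φ (algebraMap A₀ K ϖ) := rfl
    rw [h1, mul_comm]
    exact Fermat.Agent.S34.H97.mul_mem_nonunits V (hCV _ b.2)
      ((hnon _).2 (Fermat.Agent.S34.H97.unif_mem_nonunits ϖ hϖ O₀ t hS))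
  obtain ⟨v, hv, hyv⟩ := hres y hy
  have hvu : v ∉ O₀.nonunits := by
    intro hvn
    apply hyu
    have h1 : φ v ∈ V.nonunits := (hnon v).2 hvn
    have h2 : y = (y - φ v) + φ v := by ring
    rw [h2]
    exact add_mem_nonunits V hyv h1
  have hφvV : φ v ∈ V := (hφV v).2 hv
  have hψV : ∀ s : ↥(chart A₀ t), (φ.comp (algebraMap ↥(chart A₀ t) K)) s ∈ V := fun s =>
    (hφV _).2 (H6.chart_le O₀ t hS _ s.2)
  rcases val_chart ϖ hϖ O₀ t hS (locComap C x (φ.comp (algebraMap ↥(chart A₀ t) K)) hin) hϖn v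
    hv hvu with ⟨s₁, s₂, hs₂, hs⟩ | ⟨s₁, s₂, hs₂, hs⟩
  · left
    obtain ⟨a₂, b₂, ha₂, hb₂, h₂⟩ := exists_of_not_mem_locComap C x _ hin hs₂
    obtain ⟨a₁, b₁, hb₁, h₁⟩ := hin s₁
    refine ⟨a₁ * b₂, a₂ * b₁, fun h5 => (hx.mem_or_mem h5).elim ha₂ hb₁, ?_⟩
    have hφs : φ v * (φ.comp (algebraMap ↥(chart A₀ t) K)) s₂
        - (φ.comp (algebraMap ↥(chart A₀ t) K)) s₁ ∈ V.nonunits := by
      have h3 : φ v * (φ.comp (algebraMap ↥(chart A₀ t) K)) s₂
          - (φ.comp (algebraMap ↥(chart A₀ t) K)) s₁ = φ (v * (s₂ : K) - (s₁ : K)) := by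
        rw [map_sub, map_mul]
        rfl
      rw [h3]
      exact (hnon _).2 hs
    have e : y * ((a₂ * b₁ : ↥C) : L) - ((a₁ * b₂ : ↥C) : L)
        = (b₁ : L) * (b₂ : L) * ((φ.comp (algebraMap ↥(chart A₀ t) K)) s₂ * (y - φ v)
          + (φ v * (φ.comp (algebraMap ↥(chart A₀ t) K)) s₂
            - (φ.comp (algebraMap ↥(chart A₀ t) K)) s₁)) := by
      push_cast
      rw [← h₁, ← h₂]
      ring
    rw [e]
    exact Fermat.Agent.S34.H97.mul_mem_nonunits V (mul_mem (hCV _ b₁.2) (hCV _ b₂.2))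
      (add_mem_nonunits V (Fermat.Agent.S34.H97.mul_mem_nonunits V (hψV s₂) hyv) hφs)
  · right
    obtain ⟨a₂, b₂, ha₂, hb₂, h₂⟩ := exists_of_not_mem_locComap C x _ hin hs₂
    obtain ⟨a₁, b₁, hb₁, h₁⟩ := hin s₁
    refine ⟨a₁ * b₂, a₂ * b₁, fun h5 => (hx.mem_or_mem h5).elim ha₂ hb₁, ?_⟩
    have hφs : (φ v)⁻¹ * (φ.comp (algebraMap ↥(chart A₀ t) K)) s₂
        - (φ.comp (algebraMap ↥(chart A₀ t) K)) s₁ ∈ V.nonunits := by
      have h3 : (φ v)⁻¹ * (φ.comp (algebraMap ↥(chart A₀ t) K)) s₂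
          - (φ.comp (algebraMap ↥(chart A₀ t) K)) s₁ = φ (v⁻¹ * (s₂ : K) - (s₁ : K)) := by
        rw [map_sub, map_mul, map_inv₀]
        rfl
      rw [h3]
      exact (hnon _).2 hs
    have hy0 : y ≠ 0 := by
      rintro rfl
      apply hyu
      rw [ValuationSubring.mem_nonunits_iff, map_zero]
      exact zero_lt_one
    have hv0 : v ≠ 0 := by
      rintro rfl
      apply hvu
      rw [ValuationSubring.mem_nonunits_iff, map_zero]
      exact zero_lt_one
    have hφv0 : φ v ≠ 0 := (map_ne_zero_iff φ φ.injective).mpr hv0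
    have hyinv : y⁻¹ ∈ V := Fermat.Agent.S34.H97.inv_mem_of_not_mem_nonunits V hy hyu
    have hφvinv : (φ v)⁻¹ ∈ V := by
      rw [← map_inv₀]
      exact (hφV _).2 (Fermat.Agent.S34.H97.inv_mem_of_not_mem_nonunits O₀ hv hvu)
    have hinv : y⁻¹ - (φ v)⁻¹ ∈ V.nonunits := by
      have h4 : y⁻¹ - (φ v)⁻¹ = -(y⁻¹ * (φ v)⁻¹ * (y - φ v)) := by
        field_simp
        ring
      rw [h4]
      have h5 := Fermat.Agent.S34.H97.mul_mem_nonunits V (mul_mem hyinv hφvinv) hyv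
      rw [ValuationSubring.mem_nonunits_iff] at h5 ⊢
      rwa [Valuation.map_neg]
    have e : y⁻¹ * ((a₂ * b₁ : ↥C) : L) - ((a₁ * b₂ : ↥C) : L)
        = (b₁ : L) * (b₂ : L) * ((φ.comp (algebraMap ↥(chart A₀ t) K)) s₂ * (y⁻¹ - (φ v)⁻¹)
          + ((φ v)⁻¹ * (φ.comp (algebraMap ↥(chart A₀ t) K)) s₂
            - (φ.comp (algebraMap ↥(chart A₀ t) K)) s₁)) := by
      push_cast
      rw [← h₁, ← h₂]
      ring
    rw [e]
    exact Fermat.Agent.S34.H97.mul_mem_nonunits V (mul_mem (hCV _ b₁.2) (hCV _ b₂.2))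
      (add_mem_nonunits V (Fermat.Agent.S34.H97.mul_mem_nonunits V (hψV s₂) hinv) hφs)

open Fermat.Agent.S34.H42 in
/-- **`OneComp` at a one-component point** (`x` on the component of `V`, not on that of `V'`). -/
theorem oneComp_of_chart_hom (ϖ : A₀) (hϖ : Irreducible ϖ)
    (O₀ : ValuationSubring K) (t : K) (hS : DSetup A₀ O₀ t)
    (φ : K →+* L) (hφA : ∀ a : A₀, φ (algebraMap A₀ K a) = algebraMap A₀ L a)
    (C : Subalgebra A₀ L) [IsIntegrallyClosed ↥C]
    (hfrac : ∀ y : L, ∃ a ∈ C, ∃ b ∈ C, b ≠ 0 ∧ y = a / b)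
    (V V' : ValuationSubring L) (hCV : ∀ c ∈ C, c ∈ V) (hCV' : ∀ c ∈ C, c ∈ V')
    (hred : ∀ c ∈ C, c ∈ V.nonunits → c ∈ V'.nonunits → ∃ d ∈ C, c = ϖ • d)
    (hφV : ∀ v : K, φ v ∈ V ↔ v ∈ O₀)
    (hres : ∀ g ∈ V, ∃ v ∈ O₀, g - φ v ∈ V.nonunits)
    (x : Ideal ↥C) [hx : x.IsPrime] (hϖx : algebraMap A₀ ↥C ϖ ∈ x)
    (hone : ∃ e : ↥C, e ∉ x ∧ (e : L) ∈ V'.nonunits)
    (hloc : InLoc C x (φ t)) (m : ℕ) (hm : 0 < m) :
    Fermat.Agent.S35.H27.OneComp C V V' m x := by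
  refine ⟨hone, branchNormal_of_chart_hom ϖ hϖ O₀ t hS φ hφA C hfrac V hCV hφV hres x ?_ hloc
    m hm⟩
  intro c hc
  obtain ⟨e, hex, heV'⟩ := hone
  have h1 : ((c * e : ↥C) : L) ∈ V.nonunits := by
    push_cast
    rw [mul_comm]
    exact Fermat.Agent.S34.H97.mul_mem_nonunits V (hCV _ e.2) hc
  have h2 : ((c * e : ↥C) : L) ∈ V'.nonunits := by
    push_cast
    exact Fermat.Agent.S34.H97.mul_mem_nonunits V' (hCV' _ c.2) heV'
  obtain ⟨d, hd, hcd⟩ := hred _ (c * e).2 h1 h2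
  have h3 : c * e = algebraMap A₀ ↥C ϖ * ⟨d, hd⟩ := by
    apply Subtype.ext
    rw [hcd, Algebra.smul_def]
    rfl
  have h4 : c * e ∈ x := by
    rw [h3]
    exact x.mul_mem_right _ hϖx
  exact (hx.mem_or_mem h4).resolve_right hex

end Main

section Fib

variable {A₀ F : Type*} [CommRing A₀] [Field F] [Algebra A₀ F]

/-- **Transversality from the local ring**: if the maximal ideal of `C_x` is the sum of the two
component ideals, every element of `x` is, up to an element outside `x`, a sum of an element of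
`C ∩ m(V₁)` and an element of `C ∩ m(V₂)`: the last clause of `H27.Crossing`. -/
theorem fib_of_localization (C : Subalgebra A₀ F) (V₁ V₂ : ValuationSubring F)
    (x : Ideal ↥C) [hx : x.IsPrime] (P1 P2 : Ideal ↥C)
    (hP1 : ∀ c : ↥C, c ∈ P1 → (c : F) ∈ V₁.nonunits)
    (hP2 : ∀ c : ↥C, c ∈ P2 → (c : F) ∈ V₂.nonunits)
    (R : Type*) [CommRing R] [Algebra ↥C R] [IsLocalization.AtPrime R x]
    (hsup : Ideal.map (algebraMap ↥C R) x ≤
      Ideal.map (algebraMap ↥C R) P1 ⊔ Ideal.map (algebraMap ↥C R) P2)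
    (r : ↥C) (hr : r ∈ x) :
    ∃ p₁ p₂ s : ↥C, s ∉ x ∧ (p₁ : F) ∈ V₁.nonunits ∧ (p₂ : F) ∈ V₂.nonunits ∧
      s * r = p₁ + p₂ := by
  have h1 := hsup (Ideal.mem_map_of_mem (algebraMap ↥C R) hr)
  obtain ⟨a, ha, b, hb, hab⟩ := Submodule.mem_sup.mp h1
  obtain ⟨⟨p₁, s₁⟩, h₁⟩ := (IsLocalization.mem_map_algebraMap_iff x.primeCompl R).mp ha
  obtain ⟨⟨p₂, s₂⟩, h₂⟩ := (IsLocalization.mem_map_algebraMap_iff x.primeCompl R).mp hb
  simp only at h₁ h₂
  have h3 : algebraMap ↥C R (r * ((s₁ : ↥C) * (s₂ : ↥C)))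
      = algebraMap ↥C R ((p₁ : ↥C) * (s₂ : ↥C) + (p₂ : ↥C) * (s₁ : ↥C)) := by
    rw [map_mul, map_mul, map_add, map_mul, map_mul, ← hab, ← h₁, ← h₂]
    ring
  obtain ⟨u, hu⟩ := (IsLocalization.eq_iff_exists x.primeCompl R).mp h3
  refine ⟨(u : ↥C) * ((p₁ : ↥C) * (s₂ : ↥C)), (u : ↥C) * ((p₂ : ↥C) * (s₁ : ↥C)),
    (u : ↥C) * ((s₁ : ↥C) * (s₂ : ↥C)), ?_, ?_, ?_, ?_⟩
  · intro h5
    rcases hx.mem_or_mem h5 with h6 | h6
    · exact u.2 h6
    · exact (hx.mem_or_mem h6).elim s₁.2 s₂.2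
  · exact hP1 _ (P1.mul_mem_left _ (P1.mul_mem_right _ p₁.2))
  · exact hP2 _ (P2.mul_mem_left _ (P2.mul_mem_right _ p₂.2))
  · calc (u : ↥C) * ((s₁ : ↥C) * (s₂ : ↥C)) * r
        = (u : ↥C) * (r * ((s₁ : ↥C) * (s₂ : ↥C))) := by ring
      _ = (u : ↥C) * ((p₁ : ↥C) * (s₂ : ↥C) + (p₂ : ↥C) * (s₁ : ↥C)) := hu
      _ = _ := by ring

/-- **Transversality after a ramified base change**: `C = f(C₀) + ϖ C` with `ϖ` in both
maximal ideals; the clause for `C₀` at `x₀ = f⁻¹ x` gives the clause for `C` at `x`. -/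
theorem fib_of_dec {C₀ : Type*} [CommRing C₀] (C : Subalgebra A₀ F) (V₁ V₂ : ValuationSubring F)
    (hCV₁ : ∀ c ∈ C, c ∈ V₁)
    (x : Ideal ↥C) (f : C₀ →+* ↥C) (ϖ : ↥C) (hϖx : ϖ ∈ x)
    (hϖ₁ : (ϖ : F) ∈ V₁.nonunits)
    (hdec : ∀ c : ↥C, ∃ (a : C₀) (t : ↥C), c = f a + ϖ * t)
    (hfib₀ : ∀ a : C₀, f a ∈ x → ∃ p₁ p₂ s : C₀, f s ∉ x ∧ ((f p₁ : ↥C) : F) ∈ V₁.nonunits ∧
      ((f p₂ : ↥C) : F) ∈ V₂.nonunits ∧ s * a = p₁ + p₂)
    (r : ↥C) (hr : r ∈ x) :
    ∃ p₁ p₂ s : ↥C, s ∉ x ∧ (p₁ : F) ∈ V₁.nonunits ∧ (p₂ : F) ∈ V₂.nonunits ∧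
      s * r = p₁ + p₂ := by
  obtain ⟨a, t, hat⟩ := hdec r
  have hfa : f a ∈ x := by
    have h1 : f a = r - ϖ * t := by rw [hat]; ring
    rw [h1]
    exact x.sub_mem hr (x.mul_mem_right _ hϖx)
  obtain ⟨p₁, p₂, s, hs, hp₁, hp₂, hsa⟩ := hfib₀ a hfa
  refine ⟨f p₁ + f s * (ϖ * t), f p₂, f s, hs, ?_, hp₂, ?_⟩
  · push_cast
    refine add_mem_nonunits V₁ hp₁ ?_
    have h2 : ((f s : ↥C) : F) * ((ϖ : F) * (t : F)) = ((f s : ↥C) : F) * (t : F) * (ϖ : F) := by
      ring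
    rw [h2]
    exact Fermat.Agent.S34.H97.mul_mem_nonunits V₁ (mul_mem (hCV₁ _ (f s).2) (hCV₁ _ t.2)) hϖ₁
  · rw [hat, mul_add, ← map_mul, hsa, map_add]
    ring

end Fib

end Fermat.Agent.S35.H97
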