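/-
S35 geometry, leaf (L6) in CHART form (helper97, tasks 636): the point types `H27.OneComp`,
`H27.Crossing`, `H27.PointFrob` of helper27's `frob_cech` at the closed points of the charts of
level `qM'`, in the vocabulary of helper10's (M3) and with the binder blocks of helper42's (M6a)
theorems `H42.pointUFD_of_not_both`, `H42.pointUFD_chart_of_not_both`,
`H42.pointUFD_chartInv_of_not_both`, `H42.pointUFD_chartInv_of_cusp` (the S34 statements), so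
that a concrete adapter for the S34 leaf is also one for the S35 leaf.

`K` the level-`M'` field with its Gauss ring `O₀` and coordinates `t` (`DSetup A₀ O₀ t`), `L` the
level-`qM'` field, `V₁`, `V₂` its two Gauss rings, `α = algebraMap K L` and `β` the two degeneracy
maps (`α⁻¹ V₁ = O₀`, `β⁻¹ V₂ = O₀`, residue degree one).

* `oneCompFrob_of_not_both` : a closed point `x ∋ ϖ` of any chart `C` which is not on both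
  components is a one-component point in the sense of `frob_cech`
  (`OneComp C V₁ V₂ m x ∨ OneComp C V₂ V₁ m x`), as soon as the local ring `C_x` contains `α t₁`
  and `β t₂`;
* `crossing_of_both` : at a point on both components, `Crossing` from its two non-formal
  fields: (N3) `S c ≡ c ^ Q (mod x)` and the fibre-product property; the two `BranchNormal`
  fields are supplied here;
* `pointFrob_of_not_both`, `pointFrob_of_charts` : the disjunction `PointFrob`;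
* `oneCompFrob_chart_of_not_both`, `crossing_chart_of_both`, `pointFrob_chart` : the finite chart
  `chart A₀ (α x₀)`;
* `oneCompFrob_chartInv_of_not_both`, `oneCompFrob_chartInv_of_cusp`, `crossing_chartInv_of_both`,
  `pointFrob_chartInv_of_cusp`, `pointFrob_chartInv` : the chart at infinity `chart A₀ (α x₀)⁻¹`.
-/
import Fermat.Agent.S34.H42.OneCompChart
import Fermat.Agent.S35.H97.ChartBranch

set_option autoImplicit false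
set_option linter.style.haveILetI false
set_option linter.unusedSectionVars false
set_option linter.unusedVariables false

noncomputable section

namespace Fermat.Agent.S35.H97

open Fermat.Agent.S28 Fermat.Agent.S18 Fermat.Agent.S18.H19 Fermat.Agent.S34.H42
  Fermat.Agent.S35.H27

section Charts

variable {A₀ : Type*} [CommRing A₀] [IsDomain A₀] [IsDiscreteValuationRing A₀] [CharZero A₀]
  {K L : Type*} [Field K] [Field L] [Algebra A₀ K] [Algebra A₀ L] [Algebra K L]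
  [IsScalarTower A₀ K L] [FaithfulSMul A₀ K]

/-- **One-component points, either component.**  Binder block of `H42.pointUFD_of_not_both`. -/
theorem oneCompFrob_of_not_both (ϖ : A₀) (hϖ : Irreducible ϖ)
    (O₀ : ValuationSubring K) (t₁ t₂ : K) (hS₁ : DSetup A₀ O₀ t₁) (hS₂ : DSetup A₀ O₀ t₂)
    (V₁ V₂ : ValuationSubring L)
    (hc₁ : ∀ v : K, algebraMap K L v ∈ V₁ ↔ v ∈ O₀)
    (hres₁ : ∀ g ∈ V₁, ∃ v ∈ O₀, g - algebraMap K L v ∈ V₁.nonunits)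
    (β : K →+* L) (hβA : ∀ a : A₀, β (algebraMap A₀ K a) = algebraMap A₀ L a)
    (hβV : ∀ v : K, β v ∈ V₂ ↔ v ∈ O₀)
    (hresβ : ∀ g ∈ V₂, ∃ v ∈ O₀, g - β v ∈ V₂.nonunits)
    (C : Subalgebra A₀ L) [IsIntegrallyClosed ↥C]
    (hfrac : ∀ y : L, ∃ a ∈ C, ∃ b ∈ C, b ≠ 0 ∧ y = a / b)
    (hCV₁ : ∀ c ∈ C, c ∈ V₁) (hCV₂ : ∀ c ∈ C, c ∈ V₂)
    (hu₁ : ∀ y : L, y ∈ V₁.nonunits ↔ ∃ d ∈ V₁, y = ϖ • d)
    (hu₂ : ∀ y : L, y ∈ V₂.nonunits ↔ ∃ d ∈ V₂, y = ϖ • d)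
    (hsat : ∀ y : L, y ∈ V₁ → y ∈ V₂ → ϖ • y ∈ C → y ∈ C)
    (x : Ideal ↥C) (hx : x.IsMaximal) (hϖx : algebraMap A₀ ↥C ϖ ∈ x)
    (hloc₁ : InLoc C x (algebraMap K L t₁)) (hloc₂ : InLoc C x (β t₂))
    (hnb : ¬ ((∀ c : ↥C, (c : L) ∈ V₁.nonunits → c ∈ x) ∧
      (∀ c : ↥C, (c : L) ∈ V₂.nonunits → c ∈ x)))
    (m : ℕ) (hm : 0 < m) :
    OneComp C V₁ V₂ m x ∨ OneComp C V₂ V₁ m x := by
  haveI hxp : x.IsPrime := hx.isPrime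
  have hπ0 : algebraMap A₀ K ϖ ≠ 0 :=
    (map_ne_zero_iff _ (FaithfulSMul.algebraMap_injective A₀ K)).mpr hϖ.ne_zero
  have hϖ0 : algebraMap A₀ L ϖ ≠ 0 := by
    rw [IsScalarTower.algebraMap_apply A₀ K L]
    exact (map_ne_zero_iff _ (algebraMap K L).injective).mpr hπ0
  by_cases h2 : ∀ c : ↥C, (c : L) ∈ V₂.nonunits → c ∈ x
  · -- the component `V₁` does not pass through `x`: `x` lies on `V₂` only
    have h1 : ¬ ∀ c : ↥C, (c : L) ∈ V₁.nonunits → c ∈ x := fun h1 => hnb ⟨h1, h2⟩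
    have hone : ∃ e : ↥C, e ∉ x ∧ (e : L) ∈ V₁.nonunits := by
      by_contra hne
      exact h1 fun c hc => by
        by_contra hcx
        exact hne ⟨c, hcx, hc⟩
    exact Or.inr (oneComp_of_chart_hom ϖ hϖ O₀ t₂ hS₂ β hβA C hfrac V₂ V₁ hCV₂ hCV₁
      (Fermat.Agent.S34.H9.red_of_unif_sat ϖ hϖ0 C V₂ V₁ hu₂ hu₁ (fun y h2 h1 => hsat y h1 h2))
      hβV hresβ x hϖx hone hloc₂ m hm)
  · have hone : ∃ e : ↥C, e ∉ x ∧ (e : L) ∈ V₂.nonunits := by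
      by_contra hne
      exact h2 fun c hc => by
        by_contra hcx
        exact hne ⟨c, hcx, hc⟩
    exact Or.inl (oneComp_of_chart_hom ϖ hϖ O₀ t₁ hS₁ (algebraMap K L)
      (fun a => (IsScalarTower.algebraMap_apply A₀ K L a).symm) C hfrac V₁ V₂ hCV₁ hCV₂
      (Fermat.Agent.S34.H9.red_of_unif_sat ϖ hϖ0 C V₁ V₂ hu₁ hu₂ hsat)
      hc₁ hres₁ x hϖx hone hloc₁ m hm)

/-- **Crossing points.**  At a prime `x` of a chart `C` on both components whose local ring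
contains `α t₁` and `β t₂`, the point type `Crossing` follows from its two non-formal fields:
(N3) (`hN3`, `H57.crossing_frob_val`) and the fibre-product property (`hfib`,
`H97.fib_of_localization` / `H97.fib_of_dec`). -/
theorem crossing_of_both (ϖ : A₀) (hϖ : Irreducible ϖ)
    (O₀ : ValuationSubring K) (t₁ t₂ : K) (hS₁ : DSetup A₀ O₀ t₁) (hS₂ : DSetup A₀ O₀ t₂)
    (V₁ V₂ : ValuationSubring L)
    (hc₁ : ∀ v : K, algebraMap K L v ∈ V₁ ↔ v ∈ O₀)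
    (hres₁ : ∀ g ∈ V₁, ∃ v ∈ O₀, g - algebraMap K L v ∈ V₁.nonunits)
    (β : K →+* L) (hβA : ∀ a : A₀, β (algebraMap A₀ K a) = algebraMap A₀ L a)
    (hβV : ∀ v : K, β v ∈ V₂ ↔ v ∈ O₀)
    (hresβ : ∀ g ∈ V₂, ∃ v ∈ O₀, g - β v ∈ V₂.nonunits)
    (C : Subalgebra A₀ L) [IsIntegrallyClosed ↥C]
    (hfrac : ∀ y : L, ∃ a ∈ C, ∃ b ∈ C, b ≠ 0 ∧ y = a / b)
    (hCV₁ : ∀ c ∈ C, c ∈ V₁) (hCV₂ : ∀ c ∈ C, c ∈ V₂)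
    (x : Ideal ↥C) [hx : x.IsPrime]
    (hloc₁ : InLoc C x (algebraMap K L t₁)) (hloc₂ : InLoc C x (β t₂))
    (hb₁ : ∀ c : ↥C, (c : L) ∈ V₁.nonunits → c ∈ x)
    (hb₂ : ∀ c : ↥C, (c : L) ∈ V₂.nonunits → c ∈ x)
    (S : L ≃+* L) (Q m : ℕ) (hm : 0 < m)
    (hN3 : ∀ c : ↥C, ∃ d : ↥C, d ∈ x ∧ S (c : L) = (c : L) ^ Q + (d : L))
    (hfib : ∀ r : ↥C, r ∈ x → ∃ p₁ p₂ s : ↥C, s ∉ x ∧ (p₁ : L) ∈ V₁.nonunits ∧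
      (p₂ : L) ∈ V₂.nonunits ∧ s * r = p₁ + p₂) :
    Crossing C V₁ V₂ S Q m x :=
  ⟨hb₁, hb₂, hN3,
    branchNormal_of_chart_hom ϖ hϖ O₀ t₁ hS₁ (algebraMap K L)
      (fun a => (IsScalarTower.algebraMap_apply A₀ K L a).symm) C hfrac V₁ hCV₁ hc₁ hres₁ x hb₁
      hloc₁ m hm,
    branchNormal_of_chart_hom ϖ hϖ O₀ t₂ hS₂ β hβA C hfrac V₂ hCV₂ hβV hresβ x hb₂ hloc₂ m hm,
    hfib⟩

/-- **`PointFrob` at a point not on both components.** -/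
theorem pointFrob_of_not_both (ϖ : A₀) (hϖ : Irreducible ϖ)
    (O₀ : ValuationSubring K) (t₁ t₂ : K) (hS₁ : DSetup A₀ O₀ t₁) (hS₂ : DSetup A₀ O₀ t₂)
    (V₁ V₂ : ValuationSubring L)
    (hc₁ : ∀ v : K, algebraMap K L v ∈ V₁ ↔ v ∈ O₀)
    (hres₁ : ∀ g ∈ V₁, ∃ v ∈ O₀, g - algebraMap K L v ∈ V₁.nonunits)
    (β : K →+* L) (hβA : ∀ a : A₀, β (algebraMap A₀ K a) = algebraMap A₀ L a)
    (hβV : ∀ v : K, β v ∈ V₂ ↔ v ∈ O₀)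
    (hresβ : ∀ g ∈ V₂, ∃ v ∈ O₀, g - β v ∈ V₂.nonunits)
    (C : Subalgebra A₀ L) [IsIntegrallyClosed ↥C]
    (hfrac : ∀ y : L, ∃ a ∈ C, ∃ b ∈ C, b ≠ 0 ∧ y = a / b)
    (hCV₁ : ∀ c ∈ C, c ∈ V₁) (hCV₂ : ∀ c ∈ C, c ∈ V₂)
    (hu₁ : ∀ y : L, y ∈ V₁.nonunits ↔ ∃ d ∈ V₁, y = ϖ • d)
    (hu₂ : ∀ y : L, y ∈ V₂.nonunits ↔ ∃ d ∈ V₂, y = ϖ • d)
    (hsat : ∀ y : L, y ∈ V₁ → y ∈ V₂ → ϖ • y ∈ C → y ∈ C)
    (x : Ideal ↥C) (hx : x.IsMaximal) (hϖx : algebraMap A₀ ↥C ϖ ∈ x)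
    (hloc₁ : InLoc C x (algebraMap K L t₁)) (hloc₂ : InLoc C x (β t₂))
    (hnb : ¬ ((∀ c : ↥C, (c : L) ∈ V₁.nonunits → c ∈ x) ∧
      (∀ c : ↥C, (c : L) ∈ V₂.nonunits → c ∈ x)))
    (S : L ≃+* L) (Q m : ℕ) (hm : 0 < m) :
    PointFrob C V₁ V₂ S Q m x := by
  rcases oneCompFrob_of_not_both ϖ hϖ O₀ t₁ t₂ hS₁ hS₂ V₁ V₂ hc₁ hres₁ β hβA hβV hresβ C hfrac
    hCV₁ hCV₂ hu₁ hu₂ hsat x hx hϖx hloc₁ hloc₂ hnb m hm with h | h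
  · exact Or.inl h
  · exact Or.inr (Or.inl h)

/-- **`PointFrob` at every closed point of a chart**, given (N3) and the fibre-product property
at the points on both components. -/
theorem pointFrob_of_charts (ϖ : A₀) (hϖ : Irreducible ϖ)
    (O₀ : ValuationSubring K) (t₁ t₂ : K) (hS₁ : DSetup A₀ O₀ t₁) (hS₂ : DSetup A₀ O₀ t₂)
    (V₁ V₂ : ValuationSubring L)
    (hc₁ : ∀ v : K, algebraMap K L v ∈ V₁ ↔ v ∈ O₀)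
    (hres₁ : ∀ g ∈ V₁, ∃ v ∈ O₀, g - algebraMap K L v ∈ V₁.nonunits)
    (β : K →+* L) (hβA : ∀ a : A₀, β (algebraMap A₀ K a) = algebraMap A₀ L a)
    (hβV : ∀ v : K, β v ∈ V₂ ↔ v ∈ O₀)
    (hresβ : ∀ g ∈ V₂, ∃ v ∈ O₀, g - β v ∈ V₂.nonunits)
    (C : Subalgebra A₀ L) [IsIntegrallyClosed ↥C]
    (hfrac : ∀ y : L, ∃ a ∈ C, ∃ b ∈ C, b ≠ 0 ∧ y = a / b)
    (hCV₁ : ∀ c ∈ C, c ∈ V₁) (hCV₂ : ∀ c ∈ C, c ∈ V₂)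
    (hu₁ : ∀ y : L, y ∈ V₁.nonunits ↔ ∃ d ∈ V₁, y = ϖ • d)
    (hu₂ : ∀ y : L, y ∈ V₂.nonunits ↔ ∃ d ∈ V₂, y = ϖ • d)
    (hsat : ∀ y : L, y ∈ V₁ → y ∈ V₂ → ϖ • y ∈ C → y ∈ C)
    (x : Ideal ↥C) (hx : x.IsMaximal) (hϖx : algebraMap A₀ ↥C ϖ ∈ x)
    (hloc₁ : InLoc C x (algebraMap K L t₁)) (hloc₂ : InLoc C x (β t₂))
    (S : L ≃+* L) (Q m : ℕ) (hm : 0 < m)
    (hcross : (∀ c : ↥C, (c : L) ∈ V₁.nonunits → c ∈ x) →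
      (∀ c : ↥C, (c : L) ∈ V₂.nonunits → c ∈ x) →
      (∀ c : ↥C, ∃ d : ↥C, d ∈ x ∧ S (c : L) = (c : L) ^ Q + (d : L)) ∧
      (∀ r : ↥C, r ∈ x → ∃ p₁ p₂ s : ↥C, s ∉ x ∧ (p₁ : L) ∈ V₁.nonunits ∧
        (p₂ : L) ∈ V₂.nonunits ∧ s * r = p₁ + p₂)) :
    PointFrob C V₁ V₂ S Q m x := by
  haveI hxp : x.IsPrime := hx.isPrime
  by_cases hb : (∀ c : ↥C, (c : L) ∈ V₁.nonunits → c ∈ x) ∧
      (∀ c : ↥C, (c : L) ∈ V₂.nonunits → c ∈ x)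
  · exact Or.inr (Or.inr (crossing_of_both ϖ hϖ O₀ t₁ t₂ hS₁ hS₂ V₁ V₂ hc₁ hres₁ β hβA hβV hresβ
      C hfrac hCV₁ hCV₂ x hloc₁ hloc₂ hb.1 hb.2 S Q m hm (hcross hb.1 hb.2).1 (hcross hb.1 hb.2).2))
  · exact pointFrob_of_not_both ϖ hϖ O₀ t₁ t₂ hS₁ hS₂ V₁ V₂ hc₁ hres₁ β hβA hβV hresβ C hfrac
      hCV₁ hCV₂ hu₁ hu₂ hsat x hx hϖx hloc₁ hloc₂ hb S Q m hm

/-! ### The finite chart `C₁ = chart A₀ (α x₀)` -/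

/-- **One-component points of the finite chart.**  Binder block of
`H42.pointUFD_chart_of_not_both`. -/
theorem oneCompFrob_chart_of_not_both (ϖ : A₀) (hϖ : Irreducible ϖ)
    (O₀ : ValuationSubring K) (x₀ : K) (hS : DSetup A₀ O₀ x₀)
    (V₁ V₂ : ValuationSubring L)
    (hc₁ : ∀ v : K, algebraMap K L v ∈ V₁ ↔ v ∈ O₀)
    (hres₁ : ∀ g ∈ V₁, ∃ v ∈ O₀, g - algebraMap K L v ∈ V₁.nonunits)
    (β : K →+* L) (hβA : ∀ a : A₀, β (algebraMap A₀ K a) = algebraMap A₀ L a)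
    (hβV : ∀ v : K, β v ∈ V₂ ↔ v ∈ O₀)
    (hresβ : ∀ g ∈ V₂, ∃ v ∈ O₀, g - β v ∈ V₂.nonunits)
    [IsIntegrallyClosed ↥(chart A₀ (algebraMap K L x₀))]
    (hfrac : ∀ y : L, ∃ a ∈ chart A₀ (algebraMap K L x₀), ∃ b ∈ chart A₀ (algebraMap K L x₀),
      b ≠ 0 ∧ y = a / b)
    (hCV₁ : ∀ c ∈ chart A₀ (algebraMap K L x₀), c ∈ V₁)
    (hCV₂ : ∀ c ∈ chart A₀ (algebraMap K L x₀), c ∈ V₂)
    (hu₁ : ∀ y : L, y ∈ V₁.nonunits ↔ ∃ d ∈ V₁, y = ϖ • d)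
    (hu₂ : ∀ y : L, y ∈ V₂.nonunits ↔ ∃ d ∈ V₂, y = ϖ • d)
    (hsat : ∀ y : L, y ∈ V₁ → y ∈ V₂ → ϖ • y ∈ chart A₀ (algebraMap K L x₀) →
      y ∈ chart A₀ (algebraMap K L x₀))
    (hjq : β x₀ ∈ chart A₀ (algebraMap K L x₀))
    (x : Ideal ↥(chart A₀ (algebraMap K L x₀))) (hx : x.IsMaximal)
    (hϖx : algebraMap A₀ ↥(chart A₀ (algebraMap K L x₀)) ϖ ∈ x)
    (hnb : ¬ ((∀ c : ↥(chart A₀ (algebraMap K L x₀)), (c : L) ∈ V₁.nonunits → c ∈ x) ∧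
      (∀ c : ↥(chart A₀ (algebraMap K L x₀)), (c : L) ∈ V₂.nonunits → c ∈ x)))
    (m : ℕ) (hm : 0 < m) :
    OneComp (chart A₀ (algebraMap K L x₀)) V₁ V₂ m x ∨
      OneComp (chart A₀ (algebraMap K L x₀)) V₂ V₁ m x := by
  haveI := hx.isPrime
  exact oneCompFrob_of_not_both ϖ hϖ O₀ x₀ x₀ hS hS V₁ V₂ hc₁ hres₁ β hβA hβV hresβ
    (chart A₀ (algebraMap K L x₀)) hfrac hCV₁ hCV₂ hu₁ hu₂ hsat x hx hϖx
    (inLoc_of_mem _ x (self_mem_chart A₀ (algebraMap K L x₀))) (inLoc_of_mem _ x hjq) hnb m hm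

/-- **Crossing points of the finite chart** from (N3) and the fibre-product property. -/
theorem crossing_chart_of_both (ϖ : A₀) (hϖ : Irreducible ϖ)
    (O₀ : ValuationSubring K) (x₀ : K) (hS : DSetup A₀ O₀ x₀)
    (V₁ V₂ : ValuationSubring L)
    (hc₁ : ∀ v : K, algebraMap K L v ∈ V₁ ↔ v ∈ O₀)
    (hres₁ : ∀ g ∈ V₁, ∃ v ∈ O₀, g - algebraMap K L v ∈ V₁.nonunits)
    (β : K →+* L) (hβA : ∀ a : A₀, β (algebraMap A₀ K a) = algebraMap A₀ L a)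
    (hβV : ∀ v : K, β v ∈ V₂ ↔ v ∈ O₀)
    (hresβ : ∀ g ∈ V₂, ∃ v ∈ O₀, g - β v ∈ V₂.nonunits)
    [IsIntegrallyClosed ↥(chart A₀ (algebraMap K L x₀))]
    (hfrac : ∀ y : L, ∃ a ∈ chart A₀ (algebraMap K L x₀), ∃ b ∈ chart A₀ (algebraMap K L x₀),
      b ≠ 0 ∧ y = a / b)
    (hCV₁ : ∀ c ∈ chart A₀ (algebraMap K L x₀), c ∈ V₁)
    (hCV₂ : ∀ c ∈ chart A₀ (algebraMap K L x₀), c ∈ V₂)
    (hjq : β x₀ ∈ chart A₀ (algebraMap K L x₀))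
    (x : Ideal ↥(chart A₀ (algebraMap K L x₀))) [hx : x.IsPrime]
    (hb₁ : ∀ c : ↥(chart A₀ (algebraMap K L x₀)), (c : L) ∈ V₁.nonunits → c ∈ x)
    (hb₂ : ∀ c : ↥(chart A₀ (algebraMap K L x₀)), (c : L) ∈ V₂.nonunits → c ∈ x)
    (S : L ≃+* L) (Q m : ℕ) (hm : 0 < m)
    (hN3 : ∀ c : ↥(chart A₀ (algebraMap K L x₀)), ∃ d : ↥(chart A₀ (algebraMap K L x₀)),
      d ∈ x ∧ S (c : L) = (c : L) ^ Q + (d : L))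
    (hfib : ∀ r : ↥(chart A₀ (algebraMap K L x₀)), r ∈ x →
      ∃ p₁ p₂ s : ↥(chart A₀ (algebraMap K L x₀)), s ∉ x ∧ (p₁ : L) ∈ V₁.nonunits ∧
      (p₂ : L) ∈ V₂.nonunits ∧ s * r = p₁ + p₂) :
    Crossing (chart A₀ (algebraMap K L x₀)) V₁ V₂ S Q m x :=
  crossing_of_both ϖ hϖ O₀ x₀ x₀ hS hS V₁ V₂ hc₁ hres₁ β hβA hβV hresβ
    (chart A₀ (algebraMap K L x₀)) hfrac hCV₁ hCV₂ x
    (inLoc_of_mem _ x (self_mem_chart A₀ (algebraMap K L x₀))) (inLoc_of_mem _ x hjq) hb₁ hb₂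
    S Q m hm hN3 hfib

/-- **`PointFrob` at every closed point of the finite chart** (the S35 mirror of
`H77.pointOK_chart`): the points not on both components are one-component points; at the points
on both components, (N3) and the fibre-product property are the hypothesis `hcross`. -/
theorem pointFrob_chart (ϖ : A₀) (hϖ : Irreducible ϖ)
    (O₀ : ValuationSubring K) (x₀ : K) (hS : DSetup A₀ O₀ x₀)
    (V₁ V₂ : ValuationSubring L)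
    (hc₁ : ∀ v : K, algebraMap K L v ∈ V₁ ↔ v ∈ O₀)
    (hres₁ : ∀ g ∈ V₁, ∃ v ∈ O₀, g - algebraMap K L v ∈ V₁.nonunits)
    (β : K →+* L) (hβA : ∀ a : A₀, β (algebraMap A₀ K a) = algebraMap A₀ L a)
    (hβV : ∀ v : K, β v ∈ V₂ ↔ v ∈ O₀)
    (hresβ : ∀ g ∈ V₂, ∃ v ∈ O₀, g - β v ∈ V₂.nonunits)
    [IsIntegrallyClosed ↥(chart A₀ (algebraMap K L x₀))]
    (hfrac : ∀ y : L, ∃ a ∈ chart A₀ (algebraMap K L x₀), ∃ b ∈ chart A₀ (algebraMap K L x₀),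
      b ≠ 0 ∧ y = a / b)
    (hCV₁ : ∀ c ∈ chart A₀ (algebraMap K L x₀), c ∈ V₁)
    (hCV₂ : ∀ c ∈ chart A₀ (algebraMap K L x₀), c ∈ V₂)
    (hu₁ : ∀ y : L, y ∈ V₁.nonunits ↔ ∃ d ∈ V₁, y = ϖ • d)
    (hu₂ : ∀ y : L, y ∈ V₂.nonunits ↔ ∃ d ∈ V₂, y = ϖ • d)
    (hsat : ∀ y : L, y ∈ V₁ → y ∈ V₂ → ϖ • y ∈ chart A₀ (algebraMap K L x₀) →
      y ∈ chart A₀ (algebraMap K L x₀))
    (hjq : β x₀ ∈ chart A₀ (algebraMap K L x₀))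
    (S : L ≃+* L) (Q m : ℕ) (hm : 0 < m)
    (x : Ideal ↥(chart A₀ (algebraMap K L x₀))) (hx : x.IsMaximal)
    (hϖx : algebraMap A₀ ↥(chart A₀ (algebraMap K L x₀)) ϖ ∈ x)
    (hcross : (∀ c : ↥(chart A₀ (algebraMap K L x₀)), (c : L) ∈ V₁.nonunits → c ∈ x) →
      (∀ c : ↥(chart A₀ (algebraMap K L x₀)), (c : L) ∈ V₂.nonunits → c ∈ x) →
      (∀ c : ↥(chart A₀ (algebraMap K L x₀)), ∃ d : ↥(chart A₀ (algebraMap K L x₀)),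
        d ∈ x ∧ S (c : L) = (c : L) ^ Q + (d : L)) ∧
      (∀ r : ↥(chart A₀ (algebraMap K L x₀)), r ∈ x →
        ∃ p₁ p₂ s : ↥(chart A₀ (algebraMap K L x₀)), s ∉ x ∧ (p₁ : L) ∈ V₁.nonunits ∧
        (p₂ : L) ∈ V₂.nonunits ∧ s * r = p₁ + p₂)) :
    PointFrob (chart A₀ (algebraMap K L x₀)) V₁ V₂ S Q m x := by
  haveI := hx.isPrime
  exact pointFrob_of_charts ϖ hϖ O₀ x₀ x₀ hS hS V₁ V₂ hc₁ hres₁ β hβA hβV hresβ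
    (chart A₀ (algebraMap K L x₀)) hfrac hCV₁ hCV₂ hu₁ hu₂ hsat x hx hϖx
    (inLoc_of_mem _ x (self_mem_chart A₀ (algebraMap K L x₀))) (inLoc_of_mem _ x hjq) S Q m hm
    hcross

/-! ### The chart at infinity `C₂ = chart A₀ (α x₀)⁻¹`, `x₀ = j` -/

/-- **One-component points of the chart at infinity.**  Binder block of
`H42.pointUFD_chartInv_of_not_both`. -/
theorem oneCompFrob_chartInv_of_not_both (ϖ : A₀) (hϖ : Irreducible ϖ)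
    (O₀ : ValuationSubring K) (x₀ : K) (hS : DSetup A₀ O₀ x₀) (hS' : DSetup A₀ O₀ x₀⁻¹)
    (V₁ V₂ : ValuationSubring L)
    (hc₁ : ∀ v : K, algebraMap K L v ∈ V₁ ↔ v ∈ O₀)
    (hres₁ : ∀ g ∈ V₁, ∃ v ∈ O₀, g - algebraMap K L v ∈ V₁.nonunits)
    (β : K →+* L) (hβA : ∀ a : A₀, β (algebraMap A₀ K a) = algebraMap A₀ L a)
    (hβV : ∀ v : K, β v ∈ V₂ ↔ v ∈ O₀)
    (hresβ : ∀ g ∈ V₂, ∃ v ∈ O₀, g - β v ∈ V₂.nonunits)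
    [IsIntegrallyClosed ↥(chart A₀ (algebraMap K L x₀)⁻¹)]
    (hfrac : ∀ y : L, ∃ a ∈ chart A₀ (algebraMap K L x₀)⁻¹,
      ∃ b ∈ chart A₀ (algebraMap K L x₀)⁻¹, b ≠ 0 ∧ y = a / b)
    (hCV₁ : ∀ c ∈ chart A₀ (algebraMap K L x₀)⁻¹, c ∈ V₁)
    (hCV₂ : ∀ c ∈ chart A₀ (algebraMap K L x₀)⁻¹, c ∈ V₂)
    (hu₁ : ∀ y : L, y ∈ V₁.nonunits ↔ ∃ d ∈ V₁, y = ϖ • d)
    (hu₂ : ∀ y : L, y ∈ V₂.nonunits ↔ ∃ d ∈ V₂, y = ϖ • d)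
    (hsat : ∀ y : L, y ∈ V₁ → y ∈ V₂ → ϖ • y ∈ chart A₀ (algebraMap K L x₀)⁻¹ →
      y ∈ chart A₀ (algebraMap K L x₀)⁻¹)
    {q : ℕ} (hq : q ≠ 0) {Φ : Polynomial (Polynomial ℤ)} (hΦ : IsModPoly q Φ)
    (h12 : (evalY (algebraMap K L x₀) Φ).eval (β x₀) = 0)
    (x : Ideal ↥(chart A₀ (algebraMap K L x₀)⁻¹)) (hx : x.IsMaximal)
    (hϖx : algebraMap A₀ ↥(chart A₀ (algebraMap K L x₀)⁻¹) ϖ ∈ x)
    (hnb : ¬ ((∀ c : ↥(chart A₀ (algebraMap K L x₀)⁻¹), (c : L) ∈ V₁.nonunits → c ∈ x) ∧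
      (∀ c : ↥(chart A₀ (algebraMap K L x₀)⁻¹), (c : L) ∈ V₂.nonunits → c ∈ x)))
    (m : ℕ) (hm : 0 < m) :
    OneComp (chart A₀ (algebraMap K L x₀)⁻¹) V₁ V₂ m x ∨
      OneComp (chart A₀ (algebraMap K L x₀)⁻¹) V₂ V₁ m x := by
  haveI := hx.isPrime
  have hx₀ : x₀ ≠ 0 := dsetup_ne_zero O₀ x₀ hS
  have hj₁ : algebraMap K L x₀ ≠ 0 := (map_ne_zero_iff _ (algebraMap K L).injective).mpr hx₀
  have hj₂ : β x₀ ≠ 0 := (map_ne_zero_iff β β.injective).mpr hx₀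
  have hs : (algebraMap K L x₀)⁻¹ ∈ chart A₀ (algebraMap K L x₀)⁻¹ := self_mem_chart A₀ _
  by_cases hsx : (⟨(algebraMap K L x₀)⁻¹, hs⟩ : ↥(chart A₀ (algebraMap K L x₀)⁻¹)) ∈ x
  · -- a cusp
    refine oneCompFrob_of_not_both ϖ hϖ O₀ x₀⁻¹ x₀⁻¹ hS' hS' V₁ V₂ hc₁ hres₁ β hβA hβV hresβ
      (chart A₀ (algebraMap K L x₀)⁻¹) hfrac hCV₁ hCV₂ hu₁ hu₂ hsat x hx hϖx ?_ ?_ hnb m hm
    · rw [map_inv₀]
      exact inLoc_of_mem _ x hs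
    · rw [map_inv₀]
      exact inLoc_inv_of_cusp _ hfrac hq hΦ (algebraMap K L x₀) (β x₀) hj₁ hj₂ h12 hs x hsx
  · -- not a cusp
    refine oneCompFrob_of_not_both ϖ hϖ O₀ x₀ x₀ hS hS V₁ V₂ hc₁ hres₁ β hβA hβV hresβ
      (chart A₀ (algebraMap K L x₀)⁻¹) hfrac hCV₁ hCV₂ hu₁ hu₂ hsat x hx hϖx ?_ ?_ hnb m hm
    · refine ⟨1, ⟨(algebraMap K L x₀)⁻¹, hs⟩, hsx, ?_⟩
      show algebraMap K L x₀ * (algebraMap K L x₀)⁻¹ = ((1 : ↥(chart A₀ (algebraMap K L x₀)⁻¹)) : L)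
      rw [mul_inv_cancel₀ hj₁, Subalgebra.coe_one]
    · exact inLoc_of_noncusp _ hfrac hΦ (algebraMap K L x₀) (β x₀) hj₁ h12 hs x hsx

/-- **The cusps of the chart at infinity** are one-component points.  Binder block of
`H42.pointUFD_chartInv_of_cusp`. -/
theorem oneCompFrob_chartInv_of_cusp (ϖ : A₀) (hϖ : Irreducible ϖ)
    (O₀ : ValuationSubring K) (x₀ : K) (hS : DSetup A₀ O₀ x₀) (hS' : DSetup A₀ O₀ x₀⁻¹)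
    (V₁ V₂ : ValuationSubring L)
    (hc₁ : ∀ v : K, algebraMap K L v ∈ V₁ ↔ v ∈ O₀)
    (hres₁ : ∀ g ∈ V₁, ∃ v ∈ O₀, g - algebraMap K L v ∈ V₁.nonunits)
    (β : K →+* L) (hβA : ∀ a : A₀, β (algebraMap A₀ K a) = algebraMap A₀ L a)
    (hβV : ∀ v : K, β v ∈ V₂ ↔ v ∈ O₀)
    (hresβ : ∀ g ∈ V₂, ∃ v ∈ O₀, g - β v ∈ V₂.nonunits)
    [IsIntegrallyClosed ↥(chart A₀ (algebraMap K L x₀)⁻¹)]
    (hfrac : ∀ y : L, ∃ a ∈ chart A₀ (algebraMap K L x₀)⁻¹,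
      ∃ b ∈ chart A₀ (algebraMap K L x₀)⁻¹, b ≠ 0 ∧ y = a / b)
    (hCV₁ : ∀ c ∈ chart A₀ (algebraMap K L x₀)⁻¹, c ∈ V₁)
    (hCV₂ : ∀ c ∈ chart A₀ (algebraMap K L x₀)⁻¹, c ∈ V₂)
    (hu₁ : ∀ y : L, y ∈ V₁.nonunits ↔ ∃ d ∈ V₁, y = ϖ • d)
    (hu₂ : ∀ y : L, y ∈ V₂.nonunits ↔ ∃ d ∈ V₂, y = ϖ • d)
    (hsat : ∀ y : L, y ∈ V₁ → y ∈ V₂ → ϖ • y ∈ chart A₀ (algebraMap K L x₀)⁻¹ →
      y ∈ chart A₀ (algebraMap K L x₀)⁻¹)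
    {q : ℕ} (hq : q.Prime) {Φ : Polynomial (Polynomial ℤ)} (hΦ : IsModPoly q Φ)
    (h12 : (evalY (algebraMap K L x₀) Φ).eval (β x₀) = 0)
    (h21 : (evalY (β x₀) Φ).eval (algebraMap K L x₀) = 0)
    (hk₁ : β x₀ - algebraMap K L x₀ ^ q ∈ V₁.nonunits)
    (hk₂ : algebraMap K L x₀ - β x₀ ^ q ∈ V₂.nonunits)
    (x : Ideal ↥(chart A₀ (algebraMap K L x₀)⁻¹)) (hx : x.IsMaximal)
    (hϖx : algebraMap A₀ ↥(chart A₀ (algebraMap K L x₀)⁻¹) ϖ ∈ x)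
    (hsx : (⟨(algebraMap K L x₀)⁻¹, self_mem_chart A₀ _⟩ :
      ↥(chart A₀ (algebraMap K L x₀)⁻¹)) ∈ x)
    (m : ℕ) (hm : 0 < m) :
    OneComp (chart A₀ (algebraMap K L x₀)⁻¹) V₁ V₂ m x ∨
      OneComp (chart A₀ (algebraMap K L x₀)⁻¹) V₂ V₁ m x := by
  haveI := hx.isPrime
  have hx₀ : x₀ ≠ 0 := dsetup_ne_zero O₀ x₀ hS
  have hj₁ : algebraMap K L x₀ ≠ 0 := (map_ne_zero_iff _ (algebraMap K L).injective).mpr hx₀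
  have hj₂ : β x₀ ≠ 0 := (map_ne_zero_iff β β.injective).mpr hx₀
  have hu₂' : (β x₀)⁻¹ ∈ V₂ := by
    rw [← map_inv₀, hβV]
    exact H6.chart_le O₀ x₀⁻¹ hS' _ (self_mem_chart A₀ x₀⁻¹)
  exact oneCompFrob_chartInv_of_not_both ϖ hϖ O₀ x₀ hS hS' V₁ V₂ hc₁ hres₁ β hβA hβV hresβ hfrac
    hCV₁ hCV₂ hu₁ hu₂ hsat hq.ne_zero hΦ h12 x hx hϖx
    (cusp_not_both _ hfrac hq hΦ (algebraMap K L x₀) (β x₀) hj₁ hj₂ h12 h21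
      (self_mem_chart A₀ _) V₁ V₂ hCV₁ hCV₂ hk₁ hk₂ hu₂' x hsx) m hm

/-- **`PointFrob` at the cusps of the chart at infinity.** -/
theorem pointFrob_chartInv_of_cusp (ϖ : A₀) (hϖ : Irreducible ϖ)
    (O₀ : ValuationSubring K) (x₀ : K) (hS : DSetup A₀ O₀ x₀) (hS' : DSetup A₀ O₀ x₀⁻¹)
    (V₁ V₂ : ValuationSubring L)
    (hc₁ : ∀ v : K, algebraMap K L v ∈ V₁ ↔ v ∈ O₀)
    (hres₁ : ∀ g ∈ V₁, ∃ v ∈ O₀, g - algebraMap K L v ∈ V₁.nonunits)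
    (β : K →+* L) (hβA : ∀ a : A₀, β (algebraMap A₀ K a) = algebraMap A₀ L a)
    (hβV : ∀ v : K, β v ∈ V₂ ↔ v ∈ O₀)
    (hresβ : ∀ g ∈ V₂, ∃ v ∈ O₀, g - β v ∈ V₂.nonunits)
    [IsIntegrallyClosed ↥(chart A₀ (algebraMap K L x₀)⁻¹)]
    (hfrac : ∀ y : L, ∃ a ∈ chart A₀ (algebraMap K L x₀)⁻¹,
      ∃ b ∈ chart A₀ (algebraMap K L x₀)⁻¹, b ≠ 0 ∧ y = a / b)
    (hCV₁ : ∀ c ∈ chart A₀ (algebraMap K L x₀)⁻¹, c ∈ V₁)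
    (hCV₂ : ∀ c ∈ chart A₀ (algebraMap K L x₀)⁻¹, c ∈ V₂)
    (hu₁ : ∀ y : L, y ∈ V₁.nonunits ↔ ∃ d ∈ V₁, y = ϖ • d)
    (hu₂ : ∀ y : L, y ∈ V₂.nonunits ↔ ∃ d ∈ V₂, y = ϖ • d)
    (hsat : ∀ y : L, y ∈ V₁ → y ∈ V₂ → ϖ • y ∈ chart A₀ (algebraMap K L x₀)⁻¹ →
      y ∈ chart A₀ (algebraMap K L x₀)⁻¹)
    {q : ℕ} (hq : q.Prime) {Φ : Polynomial (Polynomial ℤ)} (hΦ : IsModPoly q Φ)
    (h12 : (evalY (algebraMap K L x₀) Φ).eval (β x₀) = 0)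
    (h21 : (evalY (β x₀) Φ).eval (algebraMap K L x₀) = 0)
    (hk₁ : β x₀ - algebraMap K L x₀ ^ q ∈ V₁.nonunits)
    (hk₂ : algebraMap K L x₀ - β x₀ ^ q ∈ V₂.nonunits)
    (x : Ideal ↥(chart A₀ (algebraMap K L x₀)⁻¹)) (hx : x.IsMaximal)
    (hϖx : algebraMap A₀ ↥(chart A₀ (algebraMap K L x₀)⁻¹) ϖ ∈ x)
    (hsx : (⟨(algebraMap K L x₀)⁻¹, self_mem_chart A₀ _⟩ :
      ↥(chart A₀ (algebraMap K L x₀)⁻¹)) ∈ x)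
    (S : L ≃+* L) (Q m : ℕ) (hm : 0 < m) :
    PointFrob (chart A₀ (algebraMap K L x₀)⁻¹) V₁ V₂ S Q m x := by
  rcases oneCompFrob_chartInv_of_cusp ϖ hϖ O₀ x₀ hS hS' V₁ V₂ hc₁ hres₁ β hβA hβV hresβ hfrac
    hCV₁ hCV₂ hu₁ hu₂ hsat hq hΦ h12 h21 hk₁ hk₂ x hx hϖx hsx m hm with h | h
  · exact Or.inl h
  · exact Or.inr (Or.inl h)

/-- **Crossing points of the chart at infinity** (they are not cusps) from (N3) and the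
fibre-product property. -/
theorem crossing_chartInv_of_both (ϖ : A₀) (hϖ : Irreducible ϖ)
    (O₀ : ValuationSubring K) (x₀ : K) (hS : DSetup A₀ O₀ x₀)
    (V₁ V₂ : ValuationSubring L)
    (hc₁ : ∀ v : K, algebraMap K L v ∈ V₁ ↔ v ∈ O₀)
    (hres₁ : ∀ g ∈ V₁, ∃ v ∈ O₀, g - algebraMap K L v ∈ V₁.nonunits)
    (β : K →+* L) (hβA : ∀ a : A₀, β (algebraMap A₀ K a) = algebraMap A₀ L a)
    (hβV : ∀ v : K, β v ∈ V₂ ↔ v ∈ O₀)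
    (hresβ : ∀ g ∈ V₂, ∃ v ∈ O₀, g - β v ∈ V₂.nonunits)
    [IsIntegrallyClosed ↥(chart A₀ (algebraMap K L x₀)⁻¹)]
    (hfrac : ∀ y : L, ∃ a ∈ chart A₀ (algebraMap K L x₀)⁻¹,
      ∃ b ∈ chart A₀ (algebraMap K L x₀)⁻¹, b ≠ 0 ∧ y = a / b)
    (hCV₁ : ∀ c ∈ chart A₀ (algebraMap K L x₀)⁻¹, c ∈ V₁)
    (hCV₂ : ∀ c ∈ chart A₀ (algebraMap K L x₀)⁻¹, c ∈ V₂)
    {q : ℕ} {Φ : Polynomial (Polynomial ℤ)} (hΦ : IsModPoly q Φ)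
    (h12 : (evalY (algebraMap K L x₀) Φ).eval (β x₀) = 0)
    (x : Ideal ↥(chart A₀ (algebraMap K L x₀)⁻¹)) [hx : x.IsPrime]
    (hsx : (⟨(algebraMap K L x₀)⁻¹, self_mem_chart A₀ _⟩ :
      ↥(chart A₀ (algebraMap K L x₀)⁻¹)) ∉ x)
    (hb₁ : ∀ c : ↥(chart A₀ (algebraMap K L x₀)⁻¹), (c : L) ∈ V₁.nonunits → c ∈ x)
    (hb₂ : ∀ c : ↥(chart A₀ (algebraMap K L x₀)⁻¹), (c : L) ∈ V₂.nonunits → c ∈ x)
    (S : L ≃+* L) (Q m : ℕ) (hm : 0 < m)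
    (hN3 : ∀ c : ↥(chart A₀ (algebraMap K L x₀)⁻¹), ∃ d : ↥(chart A₀ (algebraMap K L x₀)⁻¹),
      d ∈ x ∧ S (c : L) = (c : L) ^ Q + (d : L))
    (hfib : ∀ r : ↥(chart A₀ (algebraMap K L x₀)⁻¹), r ∈ x →
      ∃ p₁ p₂ s : ↥(chart A₀ (algebraMap K L x₀)⁻¹), s ∉ x ∧ (p₁ : L) ∈ V₁.nonunits ∧
      (p₂ : L) ∈ V₂.nonunits ∧ s * r = p₁ + p₂) :
    Crossing (chart A₀ (algebraMap K L x₀)⁻¹) V₁ V₂ S Q m x := by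
  have hx₀ : x₀ ≠ 0 := dsetup_ne_zero O₀ x₀ hS
  have hj₁ : algebraMap K L x₀ ≠ 0 := (map_ne_zero_iff _ (algebraMap K L).injective).mpr hx₀
  have hs : (algebraMap K L x₀)⁻¹ ∈ chart A₀ (algebraMap K L x₀)⁻¹ := self_mem_chart A₀ _
  refine crossing_of_both ϖ hϖ O₀ x₀ x₀ hS hS V₁ V₂ hc₁ hres₁ β hβA hβV hresβ
    (chart A₀ (algebraMap K L x₀)⁻¹) hfrac hCV₁ hCV₂ x ?_ ?_ hb₁ hb₂ S Q m hm hN3 hfib
  · refine ⟨1, ⟨(algebraMap K L x₀)⁻¹, hs⟩, hsx, ?_⟩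
    show algebraMap K L x₀ * (algebraMap K L x₀)⁻¹ = ((1 : ↥(chart A₀ (algebraMap K L x₀)⁻¹)) : L)
    rw [mul_inv_cancel₀ hj₁, Subalgebra.coe_one]
  · exact inLoc_of_noncusp _ hfrac hΦ (algebraMap K L x₀) (β x₀) hj₁ h12 hs x hsx

/-- **`PointFrob` at every closed point of the chart at infinity** (the S35 mirror of
`H77.pointOK_chartInv`, without transfer): cusps and the other points not on both components are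
one-component points; at the points on both components, (N3) and the fibre-product property are
the hypothesis `hcross`. -/
theorem pointFrob_chartInv (ϖ : A₀) (hϖ : Irreducible ϖ)
    (O₀ : ValuationSubring K) (x₀ : K) (hS : DSetup A₀ O₀ x₀) (hS' : DSetup A₀ O₀ x₀⁻¹)
    (V₁ V₂ : ValuationSubring L)
    (hc₁ : ∀ v : K, algebraMap K L v ∈ V₁ ↔ v ∈ O₀)
    (hres₁ : ∀ g ∈ V₁, ∃ v ∈ O₀, g - algebraMap K L v ∈ V₁.nonunits)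
    (β : K →+* L) (hβA : ∀ a : A₀, β (algebraMap A₀ K a) = algebraMap A₀ L a)
    (hβV : ∀ v : K, β v ∈ V₂ ↔ v ∈ O₀)
    (hresβ : ∀ g ∈ V₂, ∃ v ∈ O₀, g - β v ∈ V₂.nonunits)
    [IsIntegrallyClosed ↥(chart A₀ (algebraMap K L x₀)⁻¹)]
    (hfrac : ∀ y : L, ∃ a ∈ chart A₀ (algebraMap K L x₀)⁻¹,
      ∃ b ∈ chart A₀ (algebraMap K L x₀)⁻¹, b ≠ 0 ∧ y = a / b)
    (hCV₁ : ∀ c ∈ chart A₀ (algebraMap K L x₀)⁻¹, c ∈ V₁)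
    (hCV₂ : ∀ c ∈ chart A₀ (algebraMap K L x₀)⁻¹, c ∈ V₂)
    (hu₁ : ∀ y : L, y ∈ V₁.nonunits ↔ ∃ d ∈ V₁, y = ϖ • d)
    (hu₂ : ∀ y : L, y ∈ V₂.nonunits ↔ ∃ d ∈ V₂, y = ϖ • d)
    (hsat : ∀ y : L, y ∈ V₁ → y ∈ V₂ → ϖ • y ∈ chart A₀ (algebraMap K L x₀)⁻¹ →
      y ∈ chart A₀ (algebraMap K L x₀)⁻¹)
    {q : ℕ} (hq : q.Prime) {Φ : Polynomial (Polynomial ℤ)} (hΦ : IsModPoly q Φ)
    (h12 : (evalY (algebraMap K L x₀) Φ).eval (β x₀) = 0)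
    (h21 : (evalY (β x₀) Φ).eval (algebraMap K L x₀) = 0)
    (hk₁ : β x₀ - algebraMap K L x₀ ^ q ∈ V₁.nonunits)
    (hk₂ : algebraMap K L x₀ - β x₀ ^ q ∈ V₂.nonunits)
    (S : L ≃+* L) (Q m : ℕ) (hm : 0 < m)
    (x : Ideal ↥(chart A₀ (algebraMap K L x₀)⁻¹)) (hx : x.IsMaximal)
    (hϖx : algebraMap A₀ ↥(chart A₀ (algebraMap K L x₀)⁻¹) ϖ ∈ x)
    (hcross : (⟨(algebraMap K L x₀)⁻¹, self_mem_chart A₀ _⟩ :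
        ↥(chart A₀ (algebraMap K L x₀)⁻¹)) ∉ x →
      (∀ c : ↥(chart A₀ (algebraMap K L x₀)⁻¹), (c : L) ∈ V₁.nonunits → c ∈ x) →
      (∀ c : ↥(chart A₀ (algebraMap K L x₀)⁻¹), (c : L) ∈ V₂.nonunits → c ∈ x) →
      (∀ c : ↥(chart A₀ (algebraMap K L x₀)⁻¹), ∃ d : ↥(chart A₀ (algebraMap K L x₀)⁻¹),
        d ∈ x ∧ S (c : L) = (c : L) ^ Q + (d : L)) ∧
      (∀ r : ↥(chart A₀ (algebraMap K L x₀)⁻¹), r ∈ x →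
        ∃ p₁ p₂ s : ↥(chart A₀ (algebraMap K L x₀)⁻¹), s ∉ x ∧ (p₁ : L) ∈ V₁.nonunits ∧
        (p₂ : L) ∈ V₂.nonunits ∧ s * r = p₁ + p₂)) :
    PointFrob (chart A₀ (algebraMap K L x₀)⁻¹) V₁ V₂ S Q m x := by
  haveI := hx.isPrime
  by_cases hsx : (⟨(algebraMap K L x₀)⁻¹, self_mem_chart A₀ _⟩ :
      ↥(chart A₀ (algebraMap K L x₀)⁻¹)) ∈ x
  · exact pointFrob_chartInv_of_cusp ϖ hϖ O₀ x₀ hS hS' V₁ V₂ hc₁ hres₁ β hβA hβV hresβ hfrac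
      hCV₁ hCV₂ hu₁ hu₂ hsat hq hΦ h12 h21 hk₁ hk₂ x hx hϖx hsx S Q m hm
  · by_cases hb : (∀ c : ↥(chart A₀ (algebraMap K L x₀)⁻¹), (c : L) ∈ V₁.nonunits → c ∈ x) ∧
        (∀ c : ↥(chart A₀ (algebraMap K L x₀)⁻¹), (c : L) ∈ V₂.nonunits → c ∈ x)
    · exact Or.inr (Or.inr (crossing_chartInv_of_both ϖ hϖ O₀ x₀ hS V₁ V₂ hc₁ hres₁ β hβA hβV
        hresβ hfrac hCV₁ hCV₂ hΦ h12 x hsx hb.1 hb.2 S Q m hm (hcross hsx hb.1 hb.2).1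
        (hcross hsx hb.1 hb.2).2))
    · rcases oneCompFrob_chartInv_of_not_both ϖ hϖ O₀ x₀ hS hS' V₁ V₂ hc₁ hres₁ β hβA hβV hresβ
        hfrac hCV₁ hCV₂ hu₁ hu₂ hsat hq.ne_zero hΦ h12 x hx hϖx hb m hm with h | h
      · exact Or.inl h
      · exact Or.inr (Or.inl h)

end Charts

end Fermat.Agent.S35.H97
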