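/-
S35 geometry, leaf (L6) in CHART form for general coordinates (helper97, tasks 636): the S35
mirrors of helper42's `H42.pointUFD_chart_of_not_both_rel` and `H42.pointUFD_chartInv_of_cusp_rel`
(`S34/H42/CuspHaupt.lean`), valid for all `q`: the coordinate `x₀` of the level-`M'` field is a
Hauptmodul with `j₀ · D(x₀) = N(x₀)` (`x₀ = j₀`: `N = X`, `D = 1`).

* `oneCompFrob_chart_of_not_both_rel` : one-component points of the finite chart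
  `chart A₀ (α x₀)` (binder block of `H42.pointUFD_chart_of_not_both_rel`);
* `oneCompFrob_chartInv_of_cusp_rel` : the cusps `(α x₀)⁻¹ ∈ x` of the chart at infinity
  (binder block of `H42.pointUFD_chartInv_of_cusp_rel`);
* `oneCompFrob_chartInv_of_noncusp` : the other points of the chart at infinity not on both
  components, from `β x₀ ∈ chart A₀ (α x₀)` (no transfer from the finite chart);
* `crossing_chartInv_of_both_mem` : the points of the chart at infinity on both components, from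
  (N3) and the fibre-product property.
-/
import Fermat.Agent.S34.H42.CuspHaupt
import Fermat.Agent.S35.H97.PointFrob

set_option autoImplicit false
set_option linter.style.haveILetI false
set_option linter.unusedSectionVars false
set_option linter.unusedVariables false

noncomputable section

namespace Fermat.Agent.S35.H97

open Fermat.Agent.S28 Fermat.Agent.S18 Fermat.Agent.S18.H19 Fermat.Agent.S34.H42
  Fermat.Agent.S35.H27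

section HauptCharts

variable {A₀ : Type*} [CommRing A₀] [IsDomain A₀] [IsDiscreteValuationRing A₀] [CharZero A₀]
  {K L : Type*} [Field K] [Field L] [Algebra A₀ K] [Algebra A₀ L] [Algebra K L]
  [IsScalarTower A₀ K L] [FaithfulSMul A₀ K]

/-- **One-component points of the finite chart, general coordinate** (all `q`).  Binder block of
`H42.pointUFD_chart_of_not_both_rel`. -/
theorem oneCompFrob_chart_of_not_both_rel (ϖ : A₀) (hϖ : Irreducible ϖ)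
    (O₀ : ValuationSubring K) (x₀ j₀ : K) (hS : DSetup A₀ O₀ x₀) (hj₀ : j₀ ≠ 0)
    (V₁ V₂ : ValuationSubring L)
    (hc₁ : ∀ v : K, algebraMap K L v ∈ V₁ ↔ v ∈ O₀)
    (hres₁ : ∀ g ∈ V₁, ∃ v ∈ O₀, g - algebraMap K L v ∈ V₁.nonunits)
    (β : K →+* L) (hβA : ∀ a : A₀, β (algebraMap A₀ K a) = algebraMap A₀ L a)
    (hβV : ∀ v : K, β v ∈ V₂ ↔ v ∈ O₀)
    (hresβ : ∀ g ∈ V₂, ∃ v ∈ O₀, g - β v ∈ V₂.nonunits)
    [IsIntegrallyClosed ↥(chart A₀ (algebraMap K L x₀))]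
    (hfrac : ∀ y : L, ∃ a ∈ chart A₀ (algebraMap K L x₀), ∃ b ∈ chart A₀ (algebraMap K L x₀),
      b ≠ 0 ∧ y = a / b)
    (hCV₁ : ∀ c ∈ chart A₀ (algebraMap K L x₀), c ∈ V₁)
    (hCV₂ : ∀ c ∈ chart A₀ (algebraMap K L x₀), c ∈ V₂)
    (hu₁ : ∀ y : L, y ∈ V₁.nonunits ↔ ∃ d ∈ V₁, y = ϖ • d)
    (hu₂ : ∀ y : L, y ∈ V₂.nonunits ↔ ∃ d ∈ V₂, y = ϖ • d)
    (hsat : ∀ y : L, y ∈ V₁ → y ∈ V₂ → ϖ • y ∈ chart A₀ (algebraMap K L x₀) →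
      y ∈ chart A₀ (algebraMap K L x₀))
    (N D : Polynomial A₀) (hrel : j₀ * Polynomial.aeval x₀ D = Polynomial.aeval x₀ N)
    (hN : N.Monic) (hD : D.Monic) (hdeg : D.natDegree < N.natDegree) (hcop : IsCoprime N D)
    {q : ℕ} (hq : q ≠ 0) {Φ : Polynomial (Polynomial ℤ)} (hΦ : IsModPoly q Φ)
    (h12 : (evalY (algebraMap K L j₀) Φ).eval (β j₀) = 0)
    (h21 : (evalY (β j₀) Φ).eval (algebraMap K L j₀) = 0)
    (hkx₁ : β x₀ - algebraMap K L x₀ ^ q ∈ V₁.nonunits)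
    (hkx₂ : algebraMap K L x₀ - β x₀ ^ q ∈ V₂.nonunits)
    (x : Ideal ↥(chart A₀ (algebraMap K L x₀))) (hx : x.IsMaximal)
    (hϖx : algebraMap A₀ ↥(chart A₀ (algebraMap K L x₀)) ϖ ∈ x)
    (hnb : ¬ ((∀ c : ↥(chart A₀ (algebraMap K L x₀)), (c : L) ∈ V₁.nonunits → c ∈ x) ∧
      (∀ c : ↥(chart A₀ (algebraMap K L x₀)), (c : L) ∈ V₂.nonunits → c ∈ x)))
    (m : ℕ) (hm : 0 < m) :
    OneComp (chart A₀ (algebraMap K L x₀)) V₁ V₂ m x ∨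
      OneComp (chart A₀ (algebraMap K L x₀)) V₂ V₁ m x :=
  oneCompFrob_chart_of_not_both ϖ hϖ O₀ x₀ hS V₁ V₂ hc₁ hres₁ β hβA hβV hresβ hfrac hCV₁ hCV₂ hu₁
    hu₂ hsat
    (beta_mem_chart_of_rel ϖ hϖ x₀ j₀ (dsetup_ne_zero O₀ x₀ hS) hj₀ V₁ V₂ β hβA hfrac hCV₁ hCV₂
      hu₁ hu₂ hsat N D hrel hN hD hdeg hcop hq hΦ h12 h21 hkx₁ hkx₂)
    x hx hϖx hnb m hm

/-- **The cusps of the chart at infinity, general coordinate** (all `q`), are one-component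
points.  Binder block of `H42.pointUFD_chartInv_of_cusp_rel`. -/
theorem oneCompFrob_chartInv_of_cusp_rel (ϖ : A₀) (hϖ : Irreducible ϖ)
    (O₀ : ValuationSubring K) (x₀ j₀ : K) (hS : DSetup A₀ O₀ x₀) (hS' : DSetup A₀ O₀ x₀⁻¹)
    (hj₀ : j₀ ≠ 0) (hj₀u : j₀⁻¹ ∈ O₀)
    (V₁ V₂ : ValuationSubring L)
    (hc₁ : ∀ v : K, algebraMap K L v ∈ V₁ ↔ v ∈ O₀)
    (hres₁ : ∀ g ∈ V₁, ∃ v ∈ O₀, g - algebraMap K L v ∈ V₁.nonunits)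
    (β : K →+* L) (hβA : ∀ a : A₀, β (algebraMap A₀ K a) = algebraMap A₀ L a)
    (hβV : ∀ v : K, β v ∈ V₂ ↔ v ∈ O₀)
    (hresβ : ∀ g ∈ V₂, ∃ v ∈ O₀, g - β v ∈ V₂.nonunits)
    [IsIntegrallyClosed ↥(chart A₀ (algebraMap K L x₀)⁻¹)]
    (hfrac : ∀ y : L, ∃ a ∈ chart A₀ (algebraMap K L x₀)⁻¹,
      ∃ b ∈ chart A₀ (algebraMap K L x₀)⁻¹, b ≠ 0 ∧ y = a / b)
    (hCV₁ : ∀ c ∈ chart A₀ (algebraMap K L x₀)⁻¹, c ∈ V₁)
    (hCV₂ : ∀ c ∈ chart A₀ (algebraMap K L x₀)⁻¹, c ∈ V₂)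
    (hu₁ : ∀ y : L, y ∈ V₁.nonunits ↔ ∃ d ∈ V₁, y = ϖ • d)
    (hu₂ : ∀ y : L, y ∈ V₂.nonunits ↔ ∃ d ∈ V₂, y = ϖ • d)
    (hsat : ∀ y : L, y ∈ V₁ → y ∈ V₂ → ϖ • y ∈ chart A₀ (algebraMap K L x₀)⁻¹ →
      y ∈ chart A₀ (algebraMap K L x₀)⁻¹)
    (N D : Polynomial A₀) (hrel : j₀ * Polynomial.aeval x₀ D = Polynomial.aeval x₀ N)
    (hN : N.Monic) (hD : D.Monic) (hdeg : D.natDegree < N.natDegree)
    {q : ℕ} (hq : q.Prime) {Φ : Polynomial (Polynomial ℤ)} (hΦ : IsModPoly q Φ)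
    (h12 : (evalY (algebraMap K L j₀) Φ).eval (β j₀) = 0)
    (h21 : (evalY (β j₀) Φ).eval (algebraMap K L j₀) = 0)
    (hkj₁ : β j₀ - algebraMap K L j₀ ^ q ∈ V₁.nonunits)
    (hkj₂ : algebraMap K L j₀ - β j₀ ^ q ∈ V₂.nonunits)
    (x : Ideal ↥(chart A₀ (algebraMap K L x₀)⁻¹)) (hx : x.IsMaximal)
    (hϖx : algebraMap A₀ ↥(chart A₀ (algebraMap K L x₀)⁻¹) ϖ ∈ x)
    (hsx : (⟨(algebraMap K L x₀)⁻¹, self_mem_chart A₀ _⟩ :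
      ↥(chart A₀ (algebraMap K L x₀)⁻¹)) ∈ x)
    (m : ℕ) (hm : 0 < m) :
    OneComp (chart A₀ (algebraMap K L x₀)⁻¹) V₁ V₂ m x ∨
      OneComp (chart A₀ (algebraMap K L x₀)⁻¹) V₂ V₁ m x := by
  haveI := hx.isPrime
  have hx₀ : x₀ ≠ 0 := dsetup_ne_zero O₀ x₀ hS
  have hh₁ : algebraMap K L x₀ ≠ 0 := (map_ne_zero_iff _ (algebraMap K L).injective).mpr hx₀
  have hj₁ : algebraMap K L j₀ ≠ 0 := (map_ne_zero_iff _ (algebraMap K L).injective).mpr hj₀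
  have hj₂ : β j₀ ≠ 0 := (map_ne_zero_iff β β.injective).mpr hj₀
  have hnb := not_both_of_chartInv_mem x₀ j₀ hx₀ hj₀ O₀ hj₀u V₁ V₂ hc₁ β hβV hfrac hCV₁ hCV₂ N D
    hrel hN hdeg hq hΦ h12 h21 hkj₁ hkj₂ x hsx
  have hcusp : InMax (chart A₀ (algebraMap K L x₀)⁻¹) x (algebraMap K L j₀)⁻¹ :=
    inMax_inv_of_inMax_inv _ hfrac x N D hN hdeg (algebraMap K L x₀) (algebraMap K L j₀) hh₁
      (rel_alpha (L := L) x₀ j₀ N D hrel) (inMax_of_mem _ x (self_mem_chart A₀ _) hsx)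
  have hDu : ∃ i, IsUnit (D.coeff i) :=
    ⟨D.natDegree, by rw [Polynomial.coeff_natDegree, hD.leadingCoeff]; exact isUnit_one⟩
  have hloc₁ : InLoc (chart A₀ (algebraMap K L x₀)⁻¹) x (algebraMap K L x₀⁻¹) := by
    rw [map_inv₀]
    exact inLoc_of_mem _ x (self_mem_chart A₀ _)
  rcases inLoc_or_inv_of_inMax_j _ hfrac x hq.ne_zero hΦ N D hDu (algebraMap K L j₀) (β j₀) (β x₀)
    hj₁ hj₂ h12 h21 (rel_beta β hβA x₀ j₀ N D hrel) hcusp with h | h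
  · exact oneCompFrob_of_not_both ϖ hϖ O₀ x₀⁻¹ x₀ hS' hS V₁ V₂ hc₁ hres₁ β hβA hβV hresβ
      (chart A₀ (algebraMap K L x₀)⁻¹) hfrac hCV₁ hCV₂ hu₁ hu₂ hsat x hx hϖx hloc₁ h hnb m hm
  · refine oneCompFrob_of_not_both ϖ hϖ O₀ x₀⁻¹ x₀⁻¹ hS' hS' V₁ V₂ hc₁ hres₁ β hβA hβV hresβ
      (chart A₀ (algebraMap K L x₀)⁻¹) hfrac hCV₁ hCV₂ hu₁ hu₂ hsat x hx hϖx hloc₁ ?_ hnb m hm
    rw [map_inv₀]
    exact h

/-- **The points of the chart at infinity away from the cusps and not on both components**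
are one-component points, for a general coordinate `x₀` with `β x₀ ∈ chart A₀ (α x₀)` (`hjq`:
`H42.beta_mem_chart_of_rel`, or the modular equation for `x₀ = j`). -/
theorem oneCompFrob_chartInv_of_noncusp (ϖ : A₀) (hϖ : Irreducible ϖ)
    (O₀ : ValuationSubring K) (x₀ : K) (hS : DSetup A₀ O₀ x₀)
    (V₁ V₂ : ValuationSubring L)
    (hc₁ : ∀ v : K, algebraMap K L v ∈ V₁ ↔ v ∈ O₀)
    (hres₁ : ∀ g ∈ V₁, ∃ v ∈ O₀, g - algebraMap K L v ∈ V₁.nonunits)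
    (β : K →+* L) (hβA : ∀ a : A₀, β (algebraMap A₀ K a) = algebraMap A₀ L a)
    (hβV : ∀ v : K, β v ∈ V₂ ↔ v ∈ O₀)
    (hresβ : ∀ g ∈ V₂, ∃ v ∈ O₀, g - β v ∈ V₂.nonunits)
    [IsIntegrallyClosed ↥(chart A₀ (algebraMap K L x₀)⁻¹)]
    (hfrac : ∀ y : L, ∃ a ∈ chart A₀ (algebraMap K L x₀)⁻¹,
      ∃ b ∈ chart A₀ (algebraMap K L x₀)⁻¹, b ≠ 0 ∧ y = a / b)
    (hCV₁ : ∀ c ∈ chart A₀ (algebraMap K L x₀)⁻¹, c ∈ V₁)
    (hCV₂ : ∀ c ∈ chart A₀ (algebraMap K L x₀)⁻¹, c ∈ V₂)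
    (hu₁ : ∀ y : L, y ∈ V₁.nonunits ↔ ∃ d ∈ V₁, y = ϖ • d)
    (hu₂ : ∀ y : L, y ∈ V₂.nonunits ↔ ∃ d ∈ V₂, y = ϖ • d)
    (hsat : ∀ y : L, y ∈ V₁ → y ∈ V₂ → ϖ • y ∈ chart A₀ (algebraMap K L x₀)⁻¹ →
      y ∈ chart A₀ (algebraMap K L x₀)⁻¹)
    (hjq : β x₀ ∈ chart A₀ (algebraMap K L x₀))
    (x : Ideal ↥(chart A₀ (algebraMap K L x₀)⁻¹)) (hx : x.IsMaximal)
    (hϖx : algebraMap A₀ ↥(chart A₀ (algebraMap K L x₀)⁻¹) ϖ ∈ x)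
    (hsx : (⟨(algebraMap K L x₀)⁻¹, self_mem_chart A₀ _⟩ :
      ↥(chart A₀ (algebraMap K L x₀)⁻¹)) ∉ x)
    (hnb : ¬ ((∀ c : ↥(chart A₀ (algebraMap K L x₀)⁻¹), (c : L) ∈ V₁.nonunits → c ∈ x) ∧
      (∀ c : ↥(chart A₀ (algebraMap K L x₀)⁻¹), (c : L) ∈ V₂.nonunits → c ∈ x)))
    (m : ℕ) (hm : 0 < m) :
    OneComp (chart A₀ (algebraMap K L x₀)⁻¹) V₁ V₂ m x ∨
      OneComp (chart A₀ (algebraMap K L x₀)⁻¹) V₂ V₁ m x := by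
  haveI := hx.isPrime
  have hx₀ : x₀ ≠ 0 := dsetup_ne_zero O₀ x₀ hS
  have hj₁ : algebraMap K L x₀ ≠ 0 := (map_ne_zero_iff _ (algebraMap K L).injective).mpr hx₀
  have hs : (algebraMap K L x₀)⁻¹ ∈ chart A₀ (algebraMap K L x₀)⁻¹ := self_mem_chart A₀ _
  have h1 : InLoc (chart A₀ (algebraMap K L x₀)⁻¹) x (algebraMap K L x₀) := by
    refine ⟨1, ⟨(algebraMap K L x₀)⁻¹, hs⟩, hsx, ?_⟩
    show algebraMap K L x₀ * (algebraMap K L x₀)⁻¹ = ((1 : ↥(chart A₀ (algebraMap K L x₀)⁻¹)) : L)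
    rw [mul_inv_cancel₀ hj₁, Subalgebra.coe_one]
  exact oneCompFrob_of_not_both ϖ hϖ O₀ x₀ x₀ hS hS V₁ V₂ hc₁ hres₁ β hβA hβV hresβ
    (chart A₀ (algebraMap K L x₀)⁻¹) hfrac hCV₁ hCV₂ hu₁ hu₂ hsat x hx hϖx h1
    (chart_le_inLoc _ hfrac x (algebraMap K L x₀) h1 (β x₀) hjq) hnb m hm

/-- **Crossing points of the chart at infinity, general coordinate** (they are not cusps) from
(N3) and the fibre-product property, given `β x₀ ∈ chart A₀ (α x₀)`. -/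
theorem crossing_chartInv_of_both_mem (ϖ : A₀) (hϖ : Irreducible ϖ)
    (O₀ : ValuationSubring K) (x₀ : K) (hS : DSetup A₀ O₀ x₀)
    (V₁ V₂ : ValuationSubring L)
    (hc₁ : ∀ v : K, algebraMap K L v ∈ V₁ ↔ v ∈ O₀)
    (hres₁ : ∀ g ∈ V₁, ∃ v ∈ O₀, g - algebraMap K L v ∈ V₁.nonunits)
    (β : K →+* L) (hβA : ∀ a : A₀, β (algebraMap A₀ K a) = algebraMap A₀ L a)
    (hβV : ∀ v : K, β v ∈ V₂ ↔ v ∈ O₀)
    (hresβ : ∀ g ∈ V₂, ∃ v ∈ O₀, g - β v ∈ V₂.nonunits)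
    [IsIntegrallyClosed ↥(chart A₀ (algebraMap K L x₀)⁻¹)]
    (hfrac : ∀ y : L, ∃ a ∈ chart A₀ (algebraMap K L x₀)⁻¹,
      ∃ b ∈ chart A₀ (algebraMap K L x₀)⁻¹, b ≠ 0 ∧ y = a / b)
    (hCV₁ : ∀ c ∈ chart A₀ (algebraMap K L x₀)⁻¹, c ∈ V₁)
    (hCV₂ : ∀ c ∈ chart A₀ (algebraMap K L x₀)⁻¹, c ∈ V₂)
    (hjq : β x₀ ∈ chart A₀ (algebraMap K L x₀))
    (x : Ideal ↥(chart A₀ (algebraMap K L x₀)⁻¹)) [hx : x.IsPrime]
    (hsx : (⟨(algebraMap K L x₀)⁻¹, self_mem_chart A₀ _⟩ :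
      ↥(chart A₀ (algebraMap K L x₀)⁻¹)) ∉ x)
    (hb₁ : ∀ c : ↥(chart A₀ (algebraMap K L x₀)⁻¹), (c : L) ∈ V₁.nonunits → c ∈ x)
    (hb₂ : ∀ c : ↥(chart A₀ (algebraMap K L x₀)⁻¹), (c : L) ∈ V₂.nonunits → c ∈ x)
    (S : L ≃+* L) (Q m : ℕ) (hm : 0 < m)
    (hN3 : ∀ c : ↥(chart A₀ (algebraMap K L x₀)⁻¹), ∃ d : ↥(chart A₀ (algebraMap K L x₀)⁻¹),
      d ∈ x ∧ S (c : L) = (c : L) ^ Q + (d : L))
    (hfib : ∀ r : ↥(chart A₀ (algebraMap K L x₀)⁻¹), r ∈ x →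
      ∃ p₁ p₂ s : ↥(chart A₀ (algebraMap K L x₀)⁻¹), s ∉ x ∧ (p₁ : L) ∈ V₁.nonunits ∧
      (p₂ : L) ∈ V₂.nonunits ∧ s * r = p₁ + p₂) :
    Crossing (chart A₀ (algebraMap K L x₀)⁻¹) V₁ V₂ S Q m x := by
  have hx₀ : x₀ ≠ 0 := dsetup_ne_zero O₀ x₀ hS
  have hj₁ : algebraMap K L x₀ ≠ 0 := (map_ne_zero_iff _ (algebraMap K L).injective).mpr hx₀
  have hs : (algebraMap K L x₀)⁻¹ ∈ chart A₀ (algebraMap K L x₀)⁻¹ := self_mem_chart A₀ _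
  have h1 : InLoc (chart A₀ (algebraMap K L x₀)⁻¹) x (algebraMap K L x₀) := by
    refine ⟨1, ⟨(algebraMap K L x₀)⁻¹, hs⟩, hsx, ?_⟩
    show algebraMap K L x₀ * (algebraMap K L x₀)⁻¹ = ((1 : ↥(chart A₀ (algebraMap K L x₀)⁻¹)) : L)
    rw [mul_inv_cancel₀ hj₁, Subalgebra.coe_one]
  exact crossing_of_both ϖ hϖ O₀ x₀ x₀ hS hS V₁ V₂ hc₁ hres₁ β hβA hβV hresβ
    (chart A₀ (algebraMap K L x₀)⁻¹) hfrac hCV₁ hCV₂ x h1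
    (chart_le_inLoc _ hfrac x (algebraMap K L x₀) h1 (β x₀) hjq) hb₁ hb₂ S Q m hm hN3 hfib

end HauptCharts

end Fermat.Agent.S35.H97
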