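/-
S35 geometry, leaf (L6a) on the CONCRETE model (helper97, tasks 636): the one-component points
of the two charts of `S34.H30.stdV` are one-component points in the sense of helper27's
`frob_cech` (`H27.OneComp`, with normal branch), for the standard base function of every prime
`q` (`j(q^M)` for `q ≠ 2, 3`, the Hauptmoduln of level two / three for `q = 3` / `q = 2`).

* `isUnit_intCast_comap` : an integer prime to `q` is a unit of `A ∩ K₀`;
* `oneCompFrob_stdV_of_rel` : `H27.OneCompFrob (stdV …) m` for a base function `x₀` (`IsBase`)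
  with a `j`-relation `j(q^M) · D(x₀) = N(x₀)` over `ℤ` (`N`, `D` monic, `deg D < deg N`,
  `a N + b D = r` with `q ∤ r`).  Everything else is derived: the charts (`H30.chartLeaf`,
  `H44.chartsGood`), the semi-local fields (`H30.semiLeaf`), the two-extension lemma on the
  `K₀`-forms (`H61.twoExt_ratForm`, `H59.finrank_alphaForm`), the second degeneracy map
  (`H42.beta_supply`), the modular equations and Kronecker congruences of `j(q^M)`
  (`H19.evalY_alpha_beta_jtop`, `H19.sep_top₁`, `H19.sep_top₂`) and of `x₀`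
  (`TwoGauss.kronecker`), and `β x₀ ∈ chart (α x₀)` (`H42.beta_mem_chart_of_rel`).
  Finite chart: `oneCompFrob_chart_of_not_both`; chart at infinity: cusps by
  `oneCompFrob_chartInv_of_cusp_rel`, the other points by `oneCompFrob_chartInv_of_noncusp`
  (no transfer between the charts).
* `oneCompFrob_stdV` : the three cases of `H30.BaseSpec`;
* `OneCompFrobLeaf2`, `oneCompFrobLeaf2` : the leaf `H27.OneCompFrobLeaf` with the hypothesis
  `BaseSpec M q x₀` (the provable form, as `H30.OneCompLeaf2`), PROVED.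
-/
import Fermat.Agent.S34.H30.SemiClose
import Fermat.Agent.S34.H19.CuspTop
import Fermat.Agent.S34.H19.HauptRel
import Fermat.Agent.S35.H27.FrobLeaves
import Fermat.Agent.S35.H97.PointFrobRel

set_option autoImplicit false
set_option linter.style.haveILetI false
set_option linter.unusedSectionVars false
set_option linter.unusedVariables false

open AlgebraicCurve ModularCurve

noncomputable section

namespace Fermat.Agent.S35.H97

open Fermat.Agent.S34.H27 Fermat.Agent.S34.H30 Fermat.Agent.S34.H10 Fermat.Agent.S34.H7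
  Fermat.Agent.S18 Fermat.Agent.S18.H74 Fermat.Agent.S18.H19 Fermat.Agent.S34.H19
  Fermat.Agent.S34.H61 Fermat.Agent.S34.H64 Fermat.Agent.S28 Fermat.Agent.S35.H27
  Fermat.Agent.S18.H28

/-- An integer prime to `q` is a unit of `A ∩ K₀`. -/
theorem isUnit_intCast_comap {q : ℕ} [Fact q.Prime] (A : ValuationSubring Kb)
    (hA : A.LiesOverPrime q) (K₀ : IntermediateField ℚ Kb) (r : ℤ) (hr : ¬ (q : ℤ) ∣ r) :
    IsUnit ((r : ℤ) : ↥(A.comap (algebraMap K₀ Kb))) := by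
  have hr' : ¬ q ∣ r.natAbs := fun h => hr (Int.natCast_dvd.mpr h)
  obtain ⟨-, hr0, hinv⟩ := Fermat.Agent.S18.H60.unit_facts_gen A hA r.natAbs hr'
  have hrK : (r : K₀) ≠ 0 := by
    intro h0
    apply hr0
    have : r = 0 := by exact_mod_cast h0
    rw [this]
    rfl
  have hmem : ((r : K₀))⁻¹ ∈ A.comap (algebraMap K₀ Kb) := by
    show algebraMap K₀ Kb ((r : K₀))⁻¹ ∈ A
    rw [map_inv₀, map_intCast]
    rcases Int.natAbs_eq r with h | h
    · rw [h]
      simpa using hinv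
    · rw [h]
      have h2 : (((-(r.natAbs : ℤ) : ℤ) : Kb))⁻¹ = -(((r.natAbs : ℕ) : Kb))⁻¹ := by
        rw [Int.cast_neg, Int.cast_natCast, inv_neg]
      rw [h2]
      exact neg_mem hinv
  refine IsUnit.of_mul_eq_one (⟨_, hmem⟩ : ↥(A.comap (algebraMap K₀ Kb))) ?_
  apply Subtype.ext
  show (((r : ℤ) : ↥(A.comap (algebraMap K₀ Kb))) : K₀) * ((r : K₀))⁻¹ = 1
  have : (((r : ℤ) : ↥(A.comap (algebraMap K₀ Kb))) : K₀) = (r : K₀) := by
    norm_cast
  rw [this]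
  exact mul_inv_cancel₀ hrK


/-- **(L6a) on the concrete model, general base function.** -/
theorem oneCompFrob_stdV_of_rel (M q : ℕ) [NeZero M] [Fact q.Prime] (hqM : ¬ q ∣ M)
    (A : ValuationSubring Kb) (hA : A.LiesOverPrime q) (hAtop : A ≠ ⊤)
    (O₁ : ValuationSubring (FN (M * q))) (w : FN (M * q) ≃+* FN (M * q))
    (hTG : TwoGauss M q hqM A hA O₁ w)
    (x₀ : FN M) (hx₀ : IsBase M q hqM A hA x₀)
    (N D : Polynomial ℤ) (hN : N.Monic) (hD : D.Monic) (hdeg : D.natDegree < N.natDegree)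
    (hrel : jtop M * Polynomial.aeval x₀ D = Polynomial.aeval x₀ N)
    (a b : Polynomial ℤ) (r : ℤ) (hr : ¬ (q : ℤ) ∣ r) (hab : a * N + b * D = Polynomial.C r)
    (K₀ : IntermediateField ℚ Kb) [FiniteDimensional ℚ K₀] [Normal ℚ K₀]
    (ϖ : ↥(A.comap (algebraMap K₀ Kb))) (hϖ : Irreducible ϖ)
    (j : ↥(ratForm (M * q) K₀)) (hj : (j : FN (M * q)) = heckeAlphaBar Kb M q x₀)
    (σ' : Kb ≃ₐ[ℚ] Kb) (m : ℕ) (hm : 0 < m) :
    OneCompFrob (stdV M q A hAtop O₁ w K₀ ϖ j σ') m := by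
  have hq : q.Prime := Fact.out
  haveI : NeZero q := ⟨hq.ne_zero⟩
  letI iL := algComap (A.comap (algebraMap K₀ Kb)) (ratForm (M * q) K₀)
  letI iK := algComap (A.comap (algebraMap K₀ Kb)) (ratForm M K₀)
  haveI := Fermat.Agent.S34.H78.isDVR_comap hAtop K₀
  haveI := Fermat.Agent.S34.H78.faithfulSMul_comap A K₀ (ratForm (M * q) K₀)
  haveI := Fermat.Agent.S34.H78.faithfulSMul_comap A K₀ (ratForm M K₀)
  letI iKL := algAlpha M q K₀
  haveI := isScalarTower_algAlpha M q K₀ A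
  -- charts and semi-local fields
  obtain ⟨htr, hfin⟩ := chartLeaf M q hqM A hA x₀ hx₀ K₀ j hj
  have hCG := Fermat.Agent.S34.H44.chartsGood j htr hfin
  have hsemi := semiLeaf M q hqM A hA hAtop O₁ w hTG x₀ hx₀ K₀ ϖ hϖ j hj σ'
  -- the base function on the `K₀`-form
  have hxm : x₀ ∈ ratForm M K₀ := mem_ratForm_of_mem_range M K₀ hx₀.1
  obtain ⟨hS, hS'⟩ := hx₀.2 K₀ hxm
  obtain rfl : j = alphaForm M q K₀ ⟨x₀, hxm⟩ := Subtype.ext hj
  set x₀' : ↥(ratForm M K₀) := ⟨x₀, hxm⟩ with hx₀'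
  have hjm : jtop M ∈ ratForm M K₀ := mem_ratForm_of_mem_range M K₀ ⟨jqNFull M, rfl⟩
  set j₀' : ↥(ratForm M K₀) := ⟨jtop M, hjm⟩ with hj₀'
  -- the valuation rings
  have hc₁ : ∀ v : ↥(ratForm M K₀),
      algebraMap ↥(ratForm M K₀) ↥(ratForm (M * q) K₀) v ∈ gaussOne M q O₁ K₀ ↔
        v ∈ gaussForm M hqM A hA K₀ := fun v => alphaForm_mem_comap_iff hTG K₀ v
  have hdvr : IsDiscreteValuationRing ↥(gaussForm M hqM A hA K₀) :=
    isDiscreteValuationRing_of_dsetup hϖ hS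
  have hT := twoExt_ratForm hTG K₀ hdvr (Fermat.Agent.S34.H59.finrank_alphaForm M q K₀ hq hqM)
  have hres₁ : ∀ g ∈ gaussOne M q O₁ K₀, ∃ v ∈ gaussForm M hqM A hA K₀,
      g - algebraMap ↥(ratForm M K₀) ↥(ratForm (M * q) K₀) v ∈ (gaussOne M q O₁ K₀).nonunits :=
    hT.res₁
  -- the second degeneracy map
  obtain ⟨hβV0, hresβ0⟩ := Fermat.Agent.S34.H42.beta_supply (gaussForm M hqM A hA K₀)
    (gaussOne M q O₁ K₀) (gaussTwoForm M q O₁ w K₀) hc₁ hres₁ (wForm hTG K₀)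
    (fun g => mem_comap_gaussTwo_iff hTG K₀ g) (wForm_wForm hTG K₀)
  have hwα : ∀ v : ↥(ratForm M K₀),
      wForm hTG K₀ (algebraMap ↥(ratForm M K₀) ↥(ratForm (M * q) K₀) v) = betaForm M q K₀ v :=
    fun v => wForm_alphaForm hTG K₀ v
  have hβA : ∀ a : ↥(A.comap (algebraMap K₀ Kb)),
      betaForm M q K₀ (algebraMap ↥(A.comap (algebraMap K₀ Kb)) ↥(ratForm M K₀) a) =
        algebraMap ↥(A.comap (algebraMap K₀ Kb)) ↥(ratForm (M * q) K₀) a :=
    fun a => betaForm_algebraMap M q K₀ (a : K₀)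
  have hβV : ∀ v : ↥(ratForm M K₀),
      betaForm M q K₀ v ∈ gaussTwoForm M q O₁ w K₀ ↔ v ∈ gaussForm M hqM A hA K₀ := fun v => by
    rw [← hwα]
    exact hβV0 v
  have hresβ : ∀ g ∈ gaussTwoForm M q O₁ w K₀, ∃ v ∈ gaussForm M hqM A hA K₀,
      g - betaForm M q K₀ v ∈ (gaussTwoForm M q O₁ w K₀).nonunits := fun g hg => by
    obtain ⟨v, hv, h⟩ := hresβ0 g hg
    exact ⟨v, hv, by rw [← hwα]; exact h⟩
  -- the `j`-relation over `A ∩ K₀`
  have haev : ∀ p : Polynomial ℤ,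
      ((Polynomial.aeval x₀' (p.map (algebraMap ℤ ↥(A.comap (algebraMap K₀ Kb)))) :
        ↥(ratForm M K₀)) : FN M) = Polynomial.aeval x₀ p := fun p => by
    rw [Polynomial.aeval_def, Polynomial.eval₂_map, Polynomial.aeval_def]
    have h1 := Polynomial.hom_eval₂ p
      ((algebraMap ↥(A.comap (algebraMap K₀ Kb)) ↥(ratForm M K₀)).comp
        (algebraMap ℤ ↥(A.comap (algebraMap K₀ Kb))))
      (algebraMap ↥(ratForm M K₀) (FN M)) x₀'
    have h2 : (algebraMap ↥(ratForm M K₀) (FN M)).comp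
        ((algebraMap ↥(A.comap (algebraMap K₀ Kb)) ↥(ratForm M K₀)).comp
          (algebraMap ℤ ↥(A.comap (algebraMap K₀ Kb)))) = algebraMap ℤ (FN M) :=
      RingHom.ext_int _ _
    rw [h2] at h1
    exact h1
  have hrel' : j₀' * Polynomial.aeval x₀' (D.map (algebraMap ℤ ↥(A.comap (algebraMap K₀ Kb)))) =
      Polynomial.aeval x₀' (N.map (algebraMap ℤ ↥(A.comap (algebraMap K₀ Kb)))) := by
    apply Subtype.ext
    show jtop M * ((Polynomial.aeval x₀' (D.map (algebraMap ℤ ↥(A.comap (algebraMap K₀ Kb)))) :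
        ↥(ratForm M K₀)) : FN M) = _
    rw [haev, haev, hrel]
  have hN' : (N.map (algebraMap ℤ ↥(A.comap (algebraMap K₀ Kb)))).Monic := hN.map _
  have hD' : (D.map (algebraMap ℤ ↥(A.comap (algebraMap K₀ Kb)))).Monic := hD.map _
  have hdeg' : (D.map (algebraMap ℤ ↥(A.comap (algebraMap K₀ Kb)))).natDegree <
      (N.map (algebraMap ℤ ↥(A.comap (algebraMap K₀ Kb)))).natDegree := by
    rw [hN.natDegree_map, hD.natDegree_map]
    exact hdeg
  have hcop' : IsCoprime (N.map (algebraMap ℤ ↥(A.comap (algebraMap K₀ Kb))))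
      (D.map (algebraMap ℤ ↥(A.comap (algebraMap K₀ Kb)))) := by
    obtain ⟨u, hu⟩ := isUnit_intCast_comap A hA K₀ r hr
    refine ⟨Polynomial.C (↑u⁻¹ : ↥(A.comap (algebraMap K₀ Kb))) *
        a.map (algebraMap ℤ ↥(A.comap (algebraMap K₀ Kb))),
      Polynomial.C (↑u⁻¹ : ↥(A.comap (algebraMap K₀ Kb))) *
        b.map (algebraMap ℤ ↥(A.comap (algebraMap K₀ Kb))), ?_⟩
    have h1 := congrArg (Polynomial.map (algebraMap ℤ ↥(A.comap (algebraMap K₀ Kb)))) hab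
    rw [Polynomial.map_add, Polynomial.map_mul, Polynomial.map_mul, Polynomial.map_C] at h1
    have h2 : (algebraMap ℤ ↥(A.comap (algebraMap K₀ Kb))) r = (u : ↥(A.comap (algebraMap K₀ Kb))) := by
      rw [hu]
      rfl
    rw [h2] at h1
    calc _ = Polynomial.C (↑u⁻¹ : ↥(A.comap (algebraMap K₀ Kb))) *
          (a.map (algebraMap ℤ ↥(A.comap (algebraMap K₀ Kb))) *
              N.map (algebraMap ℤ ↥(A.comap (algebraMap K₀ Kb))) +
            b.map (algebraMap ℤ ↥(A.comap (algebraMap K₀ Kb))) *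
              D.map (algebraMap ℤ ↥(A.comap (algebraMap K₀ Kb)))) := by ring
      _ = 1 := by
        rw [h1, ← Polynomial.C_mul, Units.inv_mul, Polynomial.C_1]
  -- maximal ideals of the two Gauss rings on the `K₀`-form
  have hn₁ : ∀ y : ↥(ratForm (M * q) K₀),
      y ∈ (gaussOne M q O₁ K₀).nonunits ↔ (y : FN (M * q)) ∈ O₁.nonunits := fun y =>
    mem_nonunits_comap_iff O₁ y
  have hn₂ : ∀ y : ↥(ratForm (M * q) K₀),
      y ∈ (gaussTwoForm M q O₁ w K₀).nonunits ↔ w (y : FN (M * q)) ∈ O₁.nonunits := fun y => by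
    rw [← mem_nonunits_gaussTwo (M := M) (q := q)]
    exact mem_nonunits_comap_iff (gaussTwo M q O₁ w) y
  -- the modular equations for `j₀ = j(q^M)`
  obtain ⟨Φ, hΦ⟩ := Fermat.Agent.S28.hasModPolys q hq
  obtain ⟨hm12, hm21⟩ := evalY_alpha_beta_jtop M q hΦ
  have h12 : (evalY (algebraMap ↥(ratForm M K₀) ↥(ratForm (M * q) K₀) j₀') Φ).eval
      (betaForm M q K₀ j₀') = 0 := by
    apply (algebraMap ↥(ratForm (M * q) K₀) (FN (M * q))).injective
    rw [map_evalY_eval, map_zero]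
    exact hm12
  have h21 : (evalY (betaForm M q K₀ j₀') Φ).eval
      (algebraMap ↥(ratForm M K₀) ↥(ratForm (M * q) K₀) j₀') = 0 := by
    apply (algebraMap ↥(ratForm (M * q) K₀) (FN (M * q))).injective
    rw [map_evalY_eval, map_zero]
    exact hm21
  -- Kronecker for `j₀`
  have hkj₁ : betaForm M q K₀ j₀' - algebraMap ↥(ratForm M K₀) ↥(ratForm (M * q) K₀) j₀' ^ q ∈
      (gaussOne M q O₁ K₀).nonunits := by
    rw [hn₁]
    exact sep_top₁ hTG
  have hkj₂ : algebraMap ↥(ratForm M K₀) ↥(ratForm (M * q) K₀) j₀' - betaForm M q K₀ j₀' ^ q ∈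
      (gaussTwoForm M q O₁ w K₀).nonunits := by
    rw [hn₂]
    have h := sep_top₂ hTG
    rw [mem_nonunits_secondGauss_iff] at h
    exact h
  -- Kronecker for the base function
  have hxO : x₀ ∈ H66.gaussO A M hA hqM := by
    have h := hS.gauss Polynomial.X ⟨1, by rw [Polynomial.coeff_X_one]; exact isUnit_one⟩
    rw [Polynomial.aeval_X] at h
    exact h.1
  obtain ⟨s, hs⟩ := Fermat.Agent.S54.H94.exists_isFrobeniusAt_of_liesOverPrime A hq hA
  obtain ⟨g, hg⟩ := hx₀.1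
  have hfix : arithmeticRingAut (modularFunctionFieldFull M) s⁻¹ x₀ = x₀ := by
    rw [← hg]
    exact arithmeticRingAut_ratEmb M s⁻¹ g
  have hkx₁ : betaForm M q K₀ x₀' - algebraMap ↥(ratForm M K₀) ↥(ratForm (M * q) K₀) x₀' ^ q ∈
      (gaussOne M q O₁ K₀).nonunits := by
    rw [hn₁]
    have h := hTG.kronecker s hs x₀ hxO
    rw [hfix] at h
    exact h
  have hkx₂ : algebraMap ↥(ratForm M K₀) ↥(ratForm (M * q) K₀) x₀' - betaForm M q K₀ x₀' ^ q ∈
      (gaussTwoForm M q O₁ w K₀).nonunits := by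
    rw [hn₂]
    have h := hTG.kronecker₂ s hs x₀ hxO
    rw [hfix, mem_nonunits_secondGauss_iff] at h
    exact h
  -- `j₀` is a unit of the Gauss ring of level `M`
  have hj₀ : j₀' ≠ 0 := by
    intro h0
    rw [h0, zero_mul] at hrel'
    exact hN'.ne_zero ((transcendental_iff.mp hS.transc) _ hrel'.symm)
  have hj₀u : j₀'⁻¹ ∈ gaussForm M hqM A hA K₀ := by
    show ((j₀'⁻¹ : ↥(ratForm M K₀)) : FN M) ∈ H66.gaussO A M hA hqM
    exact jtop_inv_mem hTG
  -- the fields of the model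
  have hu₁ : ∀ y : ↥(ratForm (M * q) K₀), y ∈ (gaussOne M q O₁ K₀).nonunits ↔
      ∃ d ∈ gaussOne M q O₁ K₀, y = ϖ • d := hsemi.unif₁
  have hu₂ : ∀ y : ↥(ratForm (M * q) K₀), y ∈ (gaussTwoForm M q O₁ w K₀).nonunits ↔
      ∃ d ∈ gaussTwoForm M q O₁ w K₀, y = ϖ • d := hsemi.unif₂
  haveI icl₁ : IsIntegrallyClosed ↥(chart ↥(A.comap (algebraMap K₀ Kb))
      (algebraMap ↥(ratForm M K₀) ↥(ratForm (M * q) K₀) x₀')) := hCG.icl₁
  haveI icl₂ : IsIntegrallyClosed ↥(chart ↥(A.comap (algebraMap K₀ Kb))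
      (algebraMap ↥(ratForm M K₀) ↥(ratForm (M * q) K₀) x₀')⁻¹) := hCG.icl₂
  have hjq : betaForm M q K₀ x₀' ∈ chart ↥(A.comap (algebraMap K₀ Kb))
      (algebraMap ↥(ratForm M K₀) ↥(ratForm (M * q) K₀) x₀') :=
    Fermat.Agent.S34.H42.beta_mem_chart_of_rel ϖ hϖ x₀' j₀'
      (Fermat.Agent.S34.H42.dsetup_ne_zero _ x₀' hS) hj₀ (gaussOne M q O₁ K₀)
      (gaussTwoForm M q O₁ w K₀) (betaForm M q K₀) hβA hCG.frac₁ hsemi.le₁₁ hsemi.le₁₂ hu₁ hu₂
      hsemi.sat₁ _ _ hrel' hN' hD' hdeg' hcop' hq.ne_zero hΦ h12 h21 hkx₁ hkx₂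
  refine ⟨fun x hx hϖx hnb => ?_, fun x hx hϖx hnb => ?_⟩
  · exact oneCompFrob_chart_of_not_both ϖ hϖ (gaussForm M hqM A hA K₀) x₀' hS
      (gaussOne M q O₁ K₀) (gaussTwoForm M q O₁ w K₀) hc₁ hres₁ (betaForm M q K₀) hβA hβV hresβ
      hCG.frac₁ hsemi.le₁₁ hsemi.le₁₂ hu₁ hu₂ hsemi.sat₁ hjq x hx hϖx hnb m hm
  · by_cases hsx : (⟨(algebraMap ↥(ratForm M K₀) ↥(ratForm (M * q) K₀) x₀')⁻¹,
        self_mem_chart _ _⟩ : ↥(chart ↥(A.comap (algebraMap K₀ Kb))
          (algebraMap ↥(ratForm M K₀) ↥(ratForm (M * q) K₀) x₀')⁻¹)) ∈ x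
    · exact oneCompFrob_chartInv_of_cusp_rel ϖ hϖ (gaussForm M hqM A hA K₀) x₀' j₀' hS hS' hj₀
        hj₀u (gaussOne M q O₁ K₀) (gaussTwoForm M q O₁ w K₀) hc₁ hres₁ (betaForm M q K₀) hβA hβV
        hresβ hCG.frac₂ hsemi.le₂₁ hsemi.le₂₂ hu₁ hu₂ hsemi.sat₂ _ _ hrel' hN' hD' hdeg' hq hΦ
        h12 h21 hkj₁ hkj₂ x hx hϖx hsx m hm
    · exact oneCompFrob_chartInv_of_noncusp ϖ hϖ (gaussForm M hqM A hA K₀) x₀' hS
        (gaussOne M q O₁ K₀) (gaussTwoForm M q O₁ w K₀) hc₁ hres₁ (betaForm M q K₀) hβA hβV hresβ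
        hCG.frac₂ hsemi.le₂₁ hsemi.le₂₂ hu₁ hu₂ hsemi.sat₂ hjq x hx hϖx hsx hnb m hm

/-- **(L6a) on the concrete model, standard base function** (`j(q^M)` for `q ≠ 2, 3`, the
Hauptmodul of level two for `q = 3`, of level three for `q = 2`). -/
theorem oneCompFrob_stdV (M q : ℕ) [NeZero M] [Fact q.Prime] (hqM : ¬ q ∣ M)
    (A : ValuationSubring Kb) (hA : A.LiesOverPrime q) (hAtop : A ≠ ⊤)
    (O₁ : ValuationSubring (FN (M * q))) (w : FN (M * q) ≃+* FN (M * q))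
    (hTG : TwoGauss M q hqM A hA O₁ w)
    (x₀ : FN M) (hx₀ : IsBase M q hqM A hA x₀) (hspec : BaseSpec M q x₀)
    (K₀ : IntermediateField ℚ Kb) [FiniteDimensional ℚ K₀] [Normal ℚ K₀]
    (ϖ : ↥(A.comap (algebraMap K₀ Kb))) (hϖ : Irreducible ϖ)
    (j : ↥(ratForm (M * q) K₀)) (hj : (j : FN (M * q)) = heckeAlphaBar Kb M q x₀)
    (σ' : Kb ≃ₐ[ℚ] Kb) (m : ℕ) (hm : 0 < m) :
    OneCompFrob (stdV M q A hAtop O₁ w K₀ ϖ j σ') m := by
  have hq : q.Prime := Fact.out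
  rcases hspec with ⟨-, -, rfl⟩ | ⟨hq3, n, hn, hN, rfl⟩ | ⟨hq2, n, hn, hN, rfl⟩
  · refine oneCompFrob_stdV_of_rel M q hqM A hA hAtop O₁ w hTG _ hx₀ Polynomial.X 1
      Polynomial.monic_X Polynomial.monic_one
      (by rw [Polynomial.natDegree_one, Polynomial.natDegree_X]; exact Nat.one_pos)
      (by rw [Polynomial.aeval_one, Polynomial.aeval_X, mul_one]) 0 1 1 ?_
      (by rw [zero_mul, zero_add, one_mul, Polynomial.C_1]) K₀ ϖ hϖ j hj σ' m hm
    intro h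
    have h1 : q ∣ 1 := Int.natCast_dvd_natCast.mp (by simpa using h)
    exact hq.one_lt.ne' (Nat.dvd_one.mp h1)
  · haveI := hn
    exact oneCompFrob_stdV_of_rel M q hqM A hA hAtop O₁ w hTG _ hx₀
      ((Polynomial.X + Polynomial.C 16) ^ 3) Polynomial.X monic_haupt_two_num Polynomial.monic_X
      (by rw [natDegree_haupt_two_num, Polynomial.natDegree_X]; norm_num)
      (hauptTwo_rel_poly n M hN) 1
      (-(Polynomial.X ^ 2 + Polynomial.C 48 * Polynomial.X + Polynomial.C 768)) 4096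
      (not_dvd_4096 hq (by rw [hq3]; norm_num)) haupt_two_bezout K₀ ϖ hϖ j hj σ' m hm
  · haveI := hn
    exact oneCompFrob_stdV_of_rel M q hqM A hA hAtop O₁ w hTG _ hx₀
      ((Polynomial.X + Polynomial.C 27) * (Polynomial.X + Polynomial.C 3) ^ 3) Polynomial.X
      monic_haupt_three_num Polynomial.monic_X
      (by rw [natDegree_haupt_three_num, Polynomial.natDegree_X]; norm_num)
      (hauptThree_rel_poly n M hN) 1
      (-(Polynomial.X ^ 3 + Polynomial.C 36 * Polynomial.X ^ 2 + Polynomial.C 270 * Polynomial.X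
        + Polynomial.C 756)) 729
      (not_dvd_729 hq (by rw [hq2]; norm_num)) haupt_three_bezout K₀ ϖ hϖ j hj σ' m hm

/-- **Leaf (L6a), one-component points, for the standard base function** (the form of
`H27.OneCompFrobLeaf` with the hypothesis `BaseSpec`, as in `H30.OneCompLeaf2`). -/
def OneCompFrobLeaf2 : Prop :=
  ∀ (M q : ℕ) [NeZero M] [Fact q.Prime] (hqM : ¬ q ∣ M) (A : ValuationSubring Kb)
    (hA : A.LiesOverPrime q) (hAtop : A ≠ ⊤) (O₁ : ValuationSubring (FN (M * q)))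
    (w : FN (M * q) ≃+* FN (M * q)), TwoGauss M q hqM A hA O₁ w →
    ∀ (x₀ : FN M), IsBase M q hqM A hA x₀ → BaseSpec M q x₀ →
    ∀ (K₀ : IntermediateField ℚ Kb) [FiniteDimensional ℚ K₀] [Normal ℚ K₀]
      (ϖ : ↥(A.comap (algebraMap K₀ Kb))), Irreducible ϖ →
      ∀ (j : ↥(ratForm (M * q) K₀)), (j : FN (M * q)) = heckeAlphaBar Kb M q x₀ →
      ∀ (σ' : Kb ≃ₐ[ℚ] Kb) (m : ℕ), 0 < m →
        OneCompFrob (stdV M q A hAtop O₁ w K₀ ϖ j σ') m

/-- **Leaf (L6a) for the standard base function: proved.** -/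
theorem oneCompFrobLeaf2 : OneCompFrobLeaf2 := by
  intro M q _ _ hqM A hA hAtop O₁ w hTG x₀ hx₀ hspec K₀ _ _ ϖ hϖ j hj σ' m hm
  exact oneCompFrob_stdV M q hqM A hA hAtop O₁ w hTG x₀ hx₀ hspec K₀ ϖ hϖ j hj σ' m hm

end Fermat.Agent.S35.H97
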