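/-
S35 geometry, leaf (L6a) in the relative form of helper27's root (helper97, tasks 636):

  `oneCompFrobLeafB_std : H27.OneCompFrobLeafB H30.StdB`

(the hypothesis `honeF` of `H27.frobModelStatement_of_pointLeaves` and
`H27.frobModelStatement_of_pointLeaves'`), from `H97.oneCompFrob_stdV`.
-/
import Fermat.Agent.S34.H30.Final
import Fermat.Agent.S35.H27.FrobRootB
import Fermat.Agent.S35.H97.OneCompStd

set_option autoImplicit false

open AlgebraicCurve ModularCurve

noncomputable section

namespace Fermat.Agent.S35.H97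

open Fermat.Agent.S34.H30 Fermat.Agent.S34.H77

/-- **Leaf (L6a), relative form at the standard base function: proved.** -/
theorem oneCompFrobLeafB_std : Fermat.Agent.S35.H27.OneCompFrobLeafB StdB := by
  intro M q _ _ hqM _ A hA hAtop O₁ w hTG x₀ hx₀ hB K₀ _ _ ϖ hϖ j hj σ' m hm
  exact oneCompFrob_stdV M q hqM A hA hAtop O₁ w hTG x₀ hx₀ hB.baseSpec K₀ ϖ hϖ j hj σ' m hm

end Fermat.Agent.S35.H97
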