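import Fermat.Agent.S34.H97.OneComponentDVR
import Fermat.Agent.S35.H97.BranchNormal

/-!
# `BranchNormal` at regular points of a branch (helper97; S35-GEO, (FS5-ABS))

`C` a noetherian chart inside `F`, `V` a valuation subring containing `C`, `P1 = C ∩ m(V)` the
component of `V`, `x` a maximal ideal containing `P1`, `κ(V) = Frac (C / P1)`.

* `branchNormal_of_span_pair` : if in the local ring `T = C_x` one has `P1 T = (b)` and
  `m_T = (b, t)` with `t ∉ (b)`, then the branch `T / b T` is a discrete valuation ring of `κ(V)`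
  and `BranchNormal C V m x` holds.  This covers the one-component points (`b = ϖ`) and both
  branches of a regular node (`m_T = (J, b)`, `P1 T = (b)`, `P2 T = (J)`).
* `branchNormal_of_oneComponent` : the one-component case from `S34.H97.one_component_local`
  (`P1 ⊓ P2 ≤ (ϖ)`, `x` on `P1` but not on `P2`, `x` locally principal modulo `P1`).
-/

set_option autoImplicit false
set_option linter.style.haveILetI false

namespace Fermat.Agent.S35.H97

open Fermat.Agent.S34.H97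

/-- **`BranchNormal` at a point where the branch is regular.** -/
theorem branchNormal_of_span_pair {A₀ F : Type*} [CommRing A₀] [Field F] [Algebra A₀ F]
    (C : Subalgebra A₀ F) [IsNoetherianRing ↥C] (V : ValuationSubring F)
    (hCV : ∀ c ∈ C, c ∈ V) (P1 x : Ideal ↥C) [hP1 : P1.IsPrime] [hx : x.IsMaximal]
    (hP1V : ∀ c : ↥C, c ∈ P1 ↔ (c : F) ∈ V.nonunits) (h1x : P1 ≤ x)
    (T : Type*) [CommRing T] [Algebra ↥C T] [IsLocalization.AtPrime T x] (b t : T)
    (hP1T : Ideal.map (algebraMap ↥C T) P1 = Ideal.span {b})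
    (hmax : Ideal.map (algebraMap ↥C T) x = Ideal.span {b, t}) (ht : t ∉ Ideal.span {b})
    (hfrac : ∀ y ∈ V, ∃ c d : ↥C, (d : F) ∉ V.nonunits ∧ y * (d : F) - (c : F) ∈ V.nonunits)
    (m : ℕ) (hm : 0 < m) (y : F) (hy : y ∈ V)
    (h : ∃ a b' : ↥C, a ∉ x ∧ b' ∉ x ∧ y ^ m * (b' : F) - (a : F) ∈ V.nonunits) :
    ∃ s₁ s₂ : ↥C, s₁ ∉ x ∧ s₂ ∉ x ∧ y * (s₂ : F) - (s₁ : F) ∈ V.nonunits := by
  haveI : x.IsPrime := hx.isPrime
  haveI : IsLocalRing T := IsLocalization.AtPrime.isLocalRing T x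
  haveI : IsNoetherianRing T := IsLocalization.isNoetherianRing x.primeCompl T inferInstance
  have hdisj : Disjoint (x.primeCompl : Set ↥C) (P1 : Set ↥C) := by
    rw [Set.disjoint_left]
    intro c hc hcP
    exact hc (h1x hcP)
  have hprime : (Ideal.span {b}).IsPrime := by
    rw [← hP1T]
    exact IsLocalization.isPrime_of_isPrime_disjoint x.primeCompl T P1 hP1 hdisj
  have hmax' : IsLocalRing.maximalIdeal T = Ideal.span {b, t} := by
    rw [← hmax]
    exact (IsLocalization.AtPrime.map_eq_maximalIdeal x T).symm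
  obtain ⟨hdom, hdvr⟩ :=
    Fermat.Agent.S34.H36.isDiscreteValuationRing_quotient b t hprime hmax' ht
  have hcomap : (P1.map (algebraMap ↥C T)).comap (algebraMap ↥C T) = P1 :=
    IsLocalization.under_map_of_isPrime_disjoint x.primeCompl T hP1 hdisj
  have hker : ∀ c : ↥C, (c : F) ∈ V.nonunits ↔ algebraMap ↥C T c ∈ Ideal.span {b} := by
    intro c
    rw [← hP1V, ← hP1T]
    constructor
    · exact fun hc => Ideal.mem_map_of_mem _ hc
    · intro hc
      rw [← hcomap]
      exact Ideal.mem_comap.mpr hc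
  exact branchNormal_of_valuationRing_quotient C V hCV x
    (fun c hc => h1x ((hP1V c).2 hc)) T b hker hfrac m hm y hy h

/-- **`BranchNormal` at a one-component point.** -/
theorem branchNormal_of_oneComponent {A₀ F : Type*} [CommRing A₀] [Field F] [Algebra A₀ F]
    (C : Subalgebra A₀ F) [IsNoetherianRing ↥C] (V : ValuationSubring F)
    (hCV : ∀ c ∈ C, c ∈ V) (ϖ : ↥C) (P1 P2 x : Ideal ↥C) [hP1 : P1.IsPrime] [hx : x.IsMaximal]
    (hP1V : ∀ c : ↥C, c ∈ P1 ↔ (c : F) ∈ V.nonunits)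
    (hinf : P1 ⊓ P2 ≤ Ideal.span {ϖ}) (hϖ1 : ϖ ∈ P1) (h1x : P1 ≤ x) (h2x : ¬ P2 ≤ x)
    (hLG : LocalGen P1 x)
    (hfrac : ∀ y ∈ V, ∃ c d : ↥C, (d : F) ∉ V.nonunits ∧ y * (d : F) - (c : F) ∈ V.nonunits)
    (m : ℕ) (hm : 0 < m) (y : F) (hy : y ∈ V)
    (h : ∃ a b : ↥C, a ∉ x ∧ b ∉ x ∧ y ^ m * (b : F) - (a : F) ∈ V.nonunits) :
    ∃ s₁ s₂ : ↥C, s₁ ∉ x ∧ s₂ ∉ x ∧ y * (s₂ : F) - (s₁ : F) ∈ V.nonunits := by
  haveI : x.IsPrime := hx.isPrime
  obtain ⟨hmap, -, t, -, hxmap, ht⟩ :=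
    one_component_local ϖ P1 P2 x hinf hϖ1 h1x h2x hLG (Localization.AtPrime x)
  exact branchNormal_of_span_pair C V hCV P1 x hP1V h1x (Localization.AtPrime x)
    (algebraMap ↥C (Localization.AtPrime x) ϖ) (algebraMap ↥C (Localization.AtPrime x) t)
    hmap hxmap ht hfrac m hm y hy h

end Fermat.Agent.S35.H97
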